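/-
TW (S56), brick B5-K (Kummer levels), helper8: INTERFACE (definitions only).

Model: `p`-adic fields as in `PT/LOC/Interface12`
(`F : Type`, `[Field F] [Algebra ℚ_[p] F] [FiniteDimensional ℚ_[p] F]`), real valuation `val`
(`val p = 1`) and thresholds `Vle` from `Ram8/Val`, `eAbs p F = ord_F p`.

* `InU p F j a`      : `a ∈ U_F^{(j)}`, i.e. `a ≡ 1 mod 𝔪_F^j`;
* `OneModP p F a`    : `a ≡ 1 mod p 𝒪_F` (`= InU (eAbs p F)`);
* `PeuRam p F a`     : `a ∈ (1 + p 𝒪_F) · F^{×p}`;
* `HasBreak p F M b` : `M/F` is Galois, totally ramified of degree `p` and every `σ ≠ 1` in `Gal(M/F)`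
                        moves every uniformizer `π₁` of `M` by `ord_M (σ π₁ - π₁) = b + 1`;
* `BreakBound p F L` : every intermediate field `F ⊆ M ⊆ L` with `HasBreak p F M b` has
                        `b (p - 1) ≤ eAbs p F` (this is what Fontaine's (P_m) + the ramification
                        chapter (R) deliver for `L = K₀(V)·F`, `F/K₀` tame, `K₀/ℚ_p` unramified);
* `PmAbs p K L`      : Fontaine's property `(P_m)`, `m > e_K p/(p-1)`, for `𝒪_L` over `𝒪_K`.
-/
import Mathlib
import Fermat.Agent.TW.Ram8.Val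

set_option autoImplicit false
set_option linter.unusedSectionVars false

namespace Fermat.Agent.TW.Ram8.KIface

open scoped Fermat.Agent.PT.LOC.Interface12 Fermat.Agent.PT.LOC.StructureTower27
open Fermat.Agent.PT.LOC.Interface12 Fermat.Agent.PT.LOC.Structure14
  Fermat.Agent.PT.LOC.StructureTowerEF27 Fermat.Agent.TW.Ram8.Val

noncomputable section

variable (p : ℕ) [hp : Fact p.Prime]

section Levels

variable (F : Type) [Field F] [Algebra ℚ_[p] F] [FiniteDimensional ℚ_[p] F]

/-- `a ∈ U_F^{(j)}`: `a ≡ 1 mod 𝔪_F^j` (`j` in the normalised valuation `ord_F`). -/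
def InU (j : ℕ) (a : F) : Prop := Vle p F ((j : ℝ) / (eAbs p F : ℝ)) (a - 1)

/-- `a ≡ 1 mod p 𝒪_F`. -/
def OneModP (a : F) : Prop := Vle p F 1 (a - 1)

/-- `a ∈ (1 + p 𝒪_F) · F^{×p}`. -/
def PeuRam (a : F) : Prop := ∃ b : F, b ≠ 0 ∧ OneModP p F (a * b ^ p)

/-- The normalised valuation of an element of `F` (junk value `0` at `0`). -/
def ordZ (a : F) : ℤ := by
  classical exact if h : a = 0 then 0 else ord p F (Units.mk0 a h)

end Levels

section Break

variable (F M : Type) [Field F] [Algebra ℚ_[p] F] [FiniteDimensional ℚ_[p] F]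
  [Field M] [Algebra ℚ_[p] M] [FiniteDimensional ℚ_[p] M] [Algebra F M] [IsScalarTower ℚ_[p] F M]

/-- `M/F` is Galois, totally ramified of degree `p`, with (lower numbering) ramification break `b`:
`ord_M (σ π₁ - π₁) = b + 1` for every `σ ≠ 1` in `Gal(M/F)` and every uniformizer `π₁` of `M`. -/
def HasBreak (b : ℕ) : Prop :=
  IsGalois F M ∧ Module.finrank F M = p ∧ ramIdx p F M = p ∧
    ∀ σ : M ≃ₐ[F] M, σ ≠ 1 → ∀ π₁ : M, IsUniformizer p M π₁ →
      σ π₁ ≠ π₁ ∧ val p M (σ π₁ - π₁) = ((b : ℝ) + 1) / (eAbs p M : ℝ)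

end Break

section Bound

variable (F L : Type) [Field F] [Algebra ℚ_[p] F] [FiniteDimensional ℚ_[p] F]
  [Field L] [Algebra ℚ_[p] L] [FiniteDimensional ℚ_[p] L] [Algebra F L] [IsScalarTower ℚ_[p] F L]

/-- Intermediate fields of an extension of `p`-adic fields are `p`-adic fields. -/
instance finiteDimensional_intermediate (M : IntermediateField F L) :
    FiniteDimensional ℚ_[p] M :=
  Module.Finite.of_injective (M.val.toLinearMap.restrictScalars ℚ_[p]) M.val.injective

/-- Every degree-`p` totally ramified subextension `M/F` of `L/F` with break `b` has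
`b (p - 1) ≤ e_F`. -/
def BreakBound : Prop :=
  ∀ (M : IntermediateField F L) (b : ℕ), HasBreak p F M b → b * (p - 1) ≤ eAbs p F

end Bound

section Pm

variable (K L : Type) [Field K] [Algebra ℚ_[p] K] [FiniteDimensional ℚ_[p] K]
  [Field L] [Algebra ℚ_[p] L] [FiniteDimensional ℚ_[p] L] [Algebra K L] [IsScalarTower ℚ_[p] K L]

/-- **Fontaine's property `(P_m)` for all `m > e_K p/(p-1)`** in the abstract model: test rings are
discrete valuation rings `C`, finite and torsion-free over `𝒪_K`; an `𝒪_K`-algebra map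
`𝒪_L → C/𝔪_C^N` with `p v_C(p) < (p-1) N` forces an `𝒪_K`-algebra map `𝒪_L → C`. -/
def PmAbs : Prop :=
  ∀ (C : Type) [CommRing C] [IsDomain C] [IsDiscreteValuationRing C] [Algebra (intRing p K) C]
    [Module.Finite (intRing p K) C], Function.Injective (algebraMap (intRing p K) C) → ∀ N : ℕ,
    (p : ℕ∞) * IsDiscreteValuationRing.addVal C (p : C) < ((p - 1) * N : ℕ) →
    Nonempty (intRing p L →ₐ[intRing p K] C ⧸ IsLocalRing.maximalIdeal C ^ N) →
    Nonempty (intRing p L →ₐ[intRing p K] C)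

end Pm

end

end Fermat.Agent.TW.Ram8.KIface
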