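/-
TW (S56), brick B5-K (Kummer levels), helper8: TRANSFER between the model `K̄ = PadicAlgCl p` of
`TW/B5/Iface` (fields = `IntermediateField ℚ_[p] K̄`, norm of `K̄`) and the abstract model of
`PT/LOC/Interface12` (spectral norm), for a finite `F ⊆ K̄`:

* `snorm_eq_norm`, `vle_iff_norm`        : spectral norm of `↥F` = restriction of the norm of `K̄`;
* `LevelData`: `val_pi`, `e_eq`, `mem_U_iff` : `D.e = eAbs p F`, `D.U i ↔ InU p F i`.
-/
import Mathlib
import Fermat.Agent.TW.Ram8.Level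
import Fermat.Agent.TW.B5.IfaceCT

set_option autoImplicit false
set_option linter.unusedSectionVars false

namespace Fermat.Agent.TW.Ram8.KbarModel

open scoped Fermat.Agent.PT.LOC.Interface12
open Fermat.Agent.PT.LOC.Interface12 Fermat.Agent.PT.LOC.Structure14
  Fermat.Agent.PT.LOC.StructureNorm14 Fermat.Agent.PT.LOC.RootsUnity14
  Fermat.Agent.PT.LOC.StructureTowerEF27
  Fermat.Agent.TW.Ram8.Val Fermat.Agent.TW.Ram8.KIface Fermat.Agent.TW.Ram8.PthPower
  Fermat.Agent.TW.Ram8.Residue Fermat.Agent.TW.Ram8.NormalForm Fermat.Agent.TW.Ram8.TotRam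
  Fermat.Agent.TW.Ram8.Cyclo Fermat.Agent.TW.Ram8.Break Fermat.Agent.TW.Ram8.Level
open Fermat.Agent.TW.B5.Iface Fermat.Agent.TW.B5.Levels47

variable (p : ℕ) [hp : Fact p.Prime]
variable (F : IntermediateField ℚ_[p] (Kbar p)) [FiniteDimensional ℚ_[p] F]

theorem snorm_eq_norm (x : F) : snorm p F x = ‖(x : Kbar p)‖ := by
  change spectralNorm ℚ_[p] F x = _
  rw [spectralNorm.eq_of_tower (L := Kbar p) x]
  rfl

theorem vle_iff_norm (t : ℝ) (x : F) : Vle p F t x ↔ ‖(x : Kbar p)‖ ≤ (p : ℝ) ^ (-t) := by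
  rw [Vle, snorm_eq_norm]

theorem norm_eq_rpow {x : F} (hx : x ≠ 0) : ‖(x : Kbar p)‖ = (p : ℝ) ^ (-(val p F x)) := by
  rw [← snorm_eq_norm, snorm_eq_rpow p F hx]

section LevelData

variable {p} {F}
variable (D : LevelData F)

/-- `D.π` as an element of `↥F`. -/
def piF : F := ⟨D.π, D.hπF⟩

theorem piF_ne_zero : piF D ≠ 0 := by
  intro h
  exact D.π_ne_zero (congrArg Subtype.val h)

theorem val_piF_pos : 0 < val p F (piF D) := by
  have h1 := norm_eq_rpow p F (piF_ne_zero D)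
  have h2 : ‖((piF D : F) : Kbar p)‖ < 1 := D.hπlt
  rw [h1] at h2
  by_contra hcon
  have : (1 : ℝ) ≤ (p : ℝ) ^ (-(val p F (piF D))) :=
    Real.one_le_rpow (one_lt_p p).le (by linarith)
  linarith

theorem val_eq_mul_val_piF {x : F} (hx : x ≠ 0) :
    ∃ n : ℤ, val p F x = n * val p F (piF D) := by
  have hxK : (x : Kbar p) ≠ 0 := by
    intro h
    apply hx
    exact Subtype.ext h
  obtain ⟨n, hn⟩ := D.val x x.2 hxK
  refine ⟨n, ?_⟩
  have h2 : ‖((piF D : F) : Kbar p)‖ = ‖D.π‖ := rfl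
  rw [val, val, snorm_eq_norm, snorm_eq_norm, hn, h2, Real.logb, Real.logb, Real.log_zpow]
  ring

theorem val_piF : val p F (piF D) = 1 / (eAbs p F : ℝ) := by
  obtain ⟨ϖ, hϖ⟩ := exists_isUniformizer p F
  obtain ⟨n, hn⟩ := val_eq_mul_val_piF D hϖ.2.1
  rw [val_uniformizer p F hϖ] at hn
  have hk := val_eq_ordZ_div p F (piF_ne_zero D)
  have he := eAbs_pos_real p F
  have hpos := val_piF_pos D
  have hnk : (n : ℝ) * (ordZ p F (piF D) : ℝ) = 1 := by
    rw [hk] at hn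
    field_simp at hn
    linarith
  have hnk' : n * ordZ p F (piF D) = 1 := by exact_mod_cast hnk
  have hkpos : 0 < ordZ p F (piF D) := by
    rw [hk] at hpos
    have := (div_pos_iff_of_pos_right he).1 hpos
    exact_mod_cast this
  have h1 : ordZ p F (piF D) = 1 :=
    Int.eq_one_of_dvd_one hkpos.le (Dvd.intro_left n hnk')
  rw [hk, h1]
  simp

theorem e_eq : D.e = eAbs p F := by
  have he := eAbs_pos_real p F
  have h1 : val p F ((p : ℕ) : F) = 1 := val_natCast_p p F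
  have h2 : ‖(((p : ℕ) : F) : Kbar p)‖ = ‖D.π‖ ^ D.e := by
    rw [← D.he]; rfl
  have h4 : ‖((piF D : F) : Kbar p)‖ = ‖D.π‖ := rfl
  have h3 : val p F ((p : ℕ) : F) = D.e * val p F (piF D) := by
    rw [val, val, snorm_eq_norm, snorm_eq_norm, h2, h4, Real.logb, Real.logb, Real.log_pow]
    ring
  rw [h1, val_piF] at h3
  field_simp at h3
  exact_mod_cast h3.symm

theorem T_mul : D.T * (p - 1) = p * eAbs p F := by
  rw [D.hT, e_eq]

theorem norm_pi_pow (i : ℕ) : ‖D.π‖ ^ i = (p : ℝ) ^ (-((i : ℝ) / (eAbs p F : ℝ))) := by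
  have h4 : ‖((piF D : F) : Kbar p)‖ = ‖D.π‖ := rfl
  have h := norm_eq_rpow p F (piF_ne_zero D)
  rw [val_piF D, h4] at h
  rw [h, ← Real.rpow_natCast, ← Real.rpow_mul (p_pos p).le]
  congr 1
  ring

theorem mem_U_iff (a : F) (i : ℕ) : (a : Kbar p) ∈ D.U i ↔ InU p F i a := by
  unfold InU LevelData.U
  rw [vle_iff_norm, norm_pi_pow]
  constructor
  · rintro ⟨_, h⟩
    simpa using h
  · intro h
    exact ⟨a.2, by simpa using h⟩

theorem mem_U_iff' {a : Kbar p} (ha : a ∈ F) (i : ℕ) : a ∈ D.U i ↔ InU p F i ⟨a, ha⟩ :=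
  mem_U_iff D ⟨a, ha⟩ i

end LevelData

end Fermat.Agent.TW.Ram8.KbarModel
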