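/-
TW (S56), brick B5-K (Kummer levels), helper8: `p`-th roots of unity in a `p`-adic field.

* `val_one_sub_primitiveRoot` : `val (1 - ζ) = 1 / (p - 1)` for a primitive `p`-th root of unity;
* `pred_dvd_eAbs`             : `(p - 1) ∣ e_F` if `ζ_p ∈ F`;
* `lamOrd`, `ord (ζ - 1) = e_F / (p - 1)`.
-/
import Mathlib
import Fermat.Agent.TW.Ram8.KIface

set_option autoImplicit false
set_option linter.unusedSectionVars false

namespace Fermat.Agent.TW.Ram8.Cyclo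

open scoped Fermat.Agent.PT.LOC.Interface12
open Fermat.Agent.PT.LOC.Interface12 Fermat.Agent.PT.LOC.Structure14
  Fermat.Agent.PT.LOC.StructureNorm14 Fermat.Agent.PT.LOC.RootsUnity14
  Fermat.Agent.PT.LOC.StructureTowerEF27 Fermat.Agent.TW.Ram8.Val Fermat.Agent.TW.Ram8.KIface

variable (p : ℕ) [hp : Fact p.Prime] (E : Type) [Field E] [Algebra ℚ_[p] E]
  [FiniteDimensional ℚ_[p] E]

theorem vle_zero_of_pow_eq_one {x : E} {m : ℕ} (hm : m ≠ 0) (hx : x ^ m = 1) : Vle p E 0 x := by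
  rw [← mem_intRing_iff_vle]
  exact mem_intRing_of_pow_eq_one p E hm hx

theorem vle_one_sub_pow {x : E} (hx : Vle p E 0 x) {t : ℝ} (h : Vle p E t (1 - x)) (k : ℕ) :
    Vle p E t (1 - x ^ k) := by
  have h1 : 1 - x ^ k = (1 - x) * ∑ i ∈ Finset.range k, x ^ i := by
    rw [mul_comm]; exact (geom_sum_mul_neg x k).symm
  rw [h1]
  have h2 : Vle p E 0 (∑ i ∈ Finset.range k, x ^ i) := by
    refine Vle.sum p E _ _ 0 fun i _ => ?_
    simpa using hx.pow p E i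
  simpa using h.mul p E h2

theorem vle_one_sub_of_pow_eq_one {ζ ξ : E} (hζ : IsPrimitiveRoot ζ p) (hξ : ξ ^ p = 1) {t : ℝ}
    (h : Vle p E t (1 - ζ)) : Vle p E t (1 - ξ) := by
  obtain ⟨i, -, rfl⟩ := hζ.eq_pow_of_pow_eq_one hξ
  exact vle_one_sub_pow p E (vle_zero_of_pow_eq_one p E hp.out.ne_zero hζ.pow_eq_one) h i

theorem one_sub_ne_zero {ζ : E} (hζ : IsPrimitiveRoot ζ p) : 1 - ζ ≠ 0 := by
  intro h
  exact hζ.ne_one hp.out.one_lt (sub_eq_zero.1 h).symm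

theorem val_one_sub_eq {ζ ξ : E} (hζ : IsPrimitiveRoot ζ p) (hξ : IsPrimitiveRoot ξ p) :
    val p E (1 - ζ) = val p E (1 - ξ) := by
  apply le_antisymm
  · have := vle_one_sub_of_pow_eq_one p E hζ hξ.pow_eq_one
      ((vle_iff p E (one_sub_ne_zero p E hζ) _).2 le_rfl)
    exact (vle_iff p E (one_sub_ne_zero p E hξ) _).1 this
  · have := vle_one_sub_of_pow_eq_one p E hξ hζ.pow_eq_one
      ((vle_iff p E (one_sub_ne_zero p E hξ) _).2 le_rfl)
    exact (vle_iff p E (one_sub_ne_zero p E hζ) _).1 this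

/-- `val (1 - ζ_p) = 1 / (p - 1)`. -/
theorem val_one_sub_primitiveRoot {ζ : E} (hζ : IsPrimitiveRoot ζ p) :
    val p E (1 - ζ) = 1 / ((p : ℝ) - 1) := by
  obtain ⟨n, hn⟩ : ∃ n, p = n + 1 := ⟨p - 1, (Nat.succ_pred_eq_of_pos hp.out.pos).symm⟩
  have hζ' : IsPrimitiveRoot ζ (n + 1) := hn ▸ hζ
  have hprod := hζ'.prod_one_sub_pow_eq_order
  have hprim : ∀ k ∈ Finset.range n, IsPrimitiveRoot (ζ ^ (k + 1)) p := by
    intro k hk
    refine hζ.pow_of_coprime (k + 1) ?_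
    rw [Nat.coprime_comm, Nat.Prime.coprime_iff_not_dvd hp.out]
    intro hdvd
    have := Nat.le_of_dvd (Nat.succ_pos k) hdvd
    rw [Finset.mem_range] at hk
    omega
  have hval : val p E (∏ k ∈ Finset.range n, (1 - ζ ^ (k + 1))) =
      ∑ k ∈ Finset.range n, val p E (1 - ζ ^ (k + 1)) :=
    val_prod p E _ _ fun k hk => one_sub_ne_zero p E (hprim k hk)
  rw [hprod] at hval
  have h1 : val p E ((n : E) + 1) = 1 := by
    have : ((n : E) + 1) = (p : E) := by rw [hn]; push_cast; rfl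
    rw [this, val_natCast_p]
  rw [h1, Finset.sum_congr rfl fun k hk => (val_one_sub_eq p E hζ (hprim k hk)).symm,
    Finset.sum_const, Finset.card_range, nsmul_eq_mul] at hval
  have hn0 : (n : ℝ) ≠ 0 := by
    have : 1 < p := hp.out.one_lt
    have : 0 < n := by omega
    exact_mod_cast this.ne'
  have hpn : (p : ℝ) - 1 = n := by rw [hn]; push_cast; ring
  rw [hpn]
  field_simp
  linarith

theorem val_primitiveRoot_sub_one {ζ : E} (hζ : IsPrimitiveRoot ζ p) :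
    val p E (ζ - 1) = 1 / ((p : ℝ) - 1) := by
  rw [← neg_sub, val_neg, val_one_sub_primitiveRoot p E hζ]

theorem primitiveRoot_sub_one_ne_zero {ζ : E} (hζ : IsPrimitiveRoot ζ p) : ζ - 1 ≠ 0 :=
  sub_ne_zero.2 (hζ.ne_one hp.out.one_lt)

/-- `ord_E (ζ_p - 1) * (p - 1) = e_E`. -/
theorem ordZ_primitiveRoot_sub_one {ζ : E} (hζ : IsPrimitiveRoot ζ p) :
    ordZ p E (ζ - 1) * ((p : ℤ) - 1) = eAbs p E := by
  have h0 := primitiveRoot_sub_one_ne_zero p E hζ
  have h1 := val_primitiveRoot_sub_one p E hζ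
  rw [val_eq_ord_div' p E h0] at h1
  have hp1 : ((p : ℝ) - 1) ≠ 0 := by
    have := one_lt_p p; linarith
  have he : (eAbs p E : ℝ) ≠ 0 := by exact_mod_cast (eAbs_pos p E).ne'
  rw [div_eq_div_iff he hp1, one_mul] at h1
  rw [ordZ, dif_neg h0]
  exact_mod_cast h1

theorem pred_dvd_eAbs (ζ : E) (hζ : IsPrimitiveRoot ζ p) : (p - 1) ∣ eAbs p E := by
  have h := ordZ_primitiveRoot_sub_one p E hζ
  have h1 : ((p - 1 : ℕ) : ℤ) = (p : ℤ) - 1 := by
    rw [Nat.cast_sub hp.out.one_le]; rfl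
  have : ((p - 1 : ℕ) : ℤ) ∣ (eAbs p E : ℤ) := by
    rw [h1, ← h]; exact Dvd.intro_left _ rfl
  exact_mod_cast this

end Fermat.Agent.TW.Ram8.Cyclo
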