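/-
TW (S56), brick B5-K (Kummer levels), helper8: `p`-th powers of `1 + β` in a `p`-adic field.

* `vle_binom_pos`, `vle_binom_neg` : `(1 + β)^p - 1 - β^p` is small;
* `val_of_one_add_pow`             : if `0 < val ((1+β)^p - 1) < p/(p-1)` then
                                      `val β = val ((1+β)^p - 1) / p`.
-/
import Mathlib
import Fermat.Agent.TW.Ram8.Cyclo

set_option autoImplicit false
set_option linter.unusedSectionVars false

namespace Fermat.Agent.TW.Ram8.PthPower

open scoped Fermat.Agent.PT.LOC.Interface12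
open Fermat.Agent.PT.LOC.Interface12 Fermat.Agent.PT.LOC.Structure14
  Fermat.Agent.PT.LOC.StructureNorm14 Fermat.Agent.PT.LOC.RootsUnity14
  Fermat.Agent.PT.LOC.StructureTowerEF27 Fermat.Agent.TW.Ram8.Val Fermat.Agent.TW.Ram8.KIface

variable (p : ℕ) [hp : Fact p.Prime] (E : Type) [Field E] [Algebra ℚ_[p] E]
  [FiniteDimensional ℚ_[p] E]

theorem vle_natCast (n : ℕ) : Vle p E 0 (n : E) := by
  rw [Vle, neg_zero, Real.rpow_zero, snorm_natCast]
  exact_mod_cast Padic.norm_int_le_one (p := p) (n : ℤ)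

theorem vle_natCast_p : Vle p E 1 (p : E) := by
  rw [Vle, snorm_natCast_q, Real.rpow_neg_one]

theorem vle_natCast_of_dvd {n : ℕ} (h : p ∣ n) : Vle p E 1 (n : E) := by
  obtain ⟨c, rfl⟩ := h
  push_cast
  simpa using (vle_natCast_p p E).mul p E (vle_natCast p E c)

/-- The middle terms of the binomial expansion of `(β + 1)^p`. -/
theorem add_one_pow_sub (β : E) :
    (1 + β) ^ p - 1 - β ^ p =
      ∑ m ∈ Finset.range (p - 1), β ^ (m + 1) * (p.choose (m + 1) : E) := by
  obtain ⟨n, hn⟩ : ∃ n, p = n + 1 := ⟨p - 1, (Nat.succ_pred_eq_of_pos hp.out.pos).symm⟩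
  rw [add_comm 1 β, add_pow, hn, Finset.sum_range_succ, Finset.sum_range_succ']
  simp only [one_pow, mul_one, Nat.choose_self, Nat.cast_one, pow_zero, Nat.choose_zero_right,
    Nat.add_sub_cancel]
  ring

theorem vle_binom_term {β : E} {t : ℝ} (hβ : Vle p E t β) {m : ℕ} (hm : m ∈ Finset.range (p - 1)) :
    Vle p E (1 + ((m : ℝ) + 1) * t) (β ^ (m + 1) * (p.choose (m + 1) : E)) := by
  rw [Finset.mem_range] at hm
  have hdvd : p ∣ p.choose (m + 1) := hp.out.dvd_choose_self (Nat.succ_ne_zero m) (by omega)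
  have h1 := (hβ.pow p E (m + 1)).mul p E (vle_natCast_of_dvd p E hdvd)
  refine h1.mono p E ?_
  push_cast
  linarith

theorem vle_binom_pos {β : E} {t : ℝ} (ht : 0 ≤ t) (hβ : Vle p E t β) :
    Vle p E (1 + t) ((1 + β) ^ p - 1 - β ^ p) := by
  rw [add_one_pow_sub]
  refine Vle.sum p E _ _ _ fun m hm => ?_
  refine (vle_binom_term p E hβ hm).mono p E ?_
  have : (0 : ℝ) ≤ m := Nat.cast_nonneg m
  nlinarith

theorem vle_binom_neg {β : E} {t : ℝ} (ht : t ≤ 0) (hβ : Vle p E t β) :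
    Vle p E (1 + ((p : ℝ) - 1) * t) ((1 + β) ^ p - 1 - β ^ p) := by
  rw [add_one_pow_sub]
  refine Vle.sum p E _ _ _ fun m hm => ?_
  refine (vle_binom_term p E hβ hm).mono p E ?_
  rw [Finset.mem_range] at hm
  have h1 : (m : ℝ) + 1 ≤ (p : ℝ) - 1 := by
    have : m + 1 ≤ p - 1 := by omega
    have h2 : ((m + 1 : ℕ) : ℝ) ≤ ((p - 1 : ℕ) : ℝ) := by exact_mod_cast this
    rw [Nat.cast_sub hp.out.one_le] at h2
    push_cast at h2
    exact h2
  nlinarith

theorem p_sub_one_pos : (0 : ℝ) < (p : ℝ) - 1 := by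
  have := one_lt_p p; linarith

/-- **Key lemma.** If `y = (1 + β)^p - 1` has `0 < val y < p/(p-1)`, then `val β = val y / p`. -/
theorem val_of_one_add_pow (β : E) (hy : (1 + β) ^ p - 1 ≠ 0)
    (h0 : 0 < val p E ((1 + β) ^ p - 1))
    (h1 : val p E ((1 + β) ^ p - 1) < (p : ℝ) / ((p : ℝ) - 1)) :
    β ≠ 0 ∧ val p E β = val p E ((1 + β) ^ p - 1) / p := by
  have hp1 := p_sub_one_pos p
  have hpp := p_pos p
  have hβ0 : β ≠ 0 := by
    rintro rfl
    apply hy
    simp
  refine ⟨hβ0, ?_⟩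
  set y := (1 + β) ^ p - 1 with hydef
  set r := (1 + β) ^ p - 1 - β ^ p with hrdef
  have hyr : y = β ^ p + r := by rw [hydef, hrdef]; ring
  have hβp : β ^ p ≠ 0 := pow_ne_zero _ hβ0
  have hvβ : Vle p E (val p E β) β := (vle_iff p E hβ0 _).2 le_rfl
  have hvp : val p E (β ^ p) = p * val p E β := val_pow p E β p
  rcases le_or_gt (val p E β) 0 with hneg | hpos
  · -- `val β ≤ 0`: then `val y = p val β ≤ 0`, contradiction
    exfalso
    have hr : Vle p E (1 + ((p : ℝ) - 1) * val p E β) r := vle_binom_neg p E hneg hvβ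
    have hlt : val p E (β ^ p) < 1 + ((p : ℝ) - 1) * val p E β := by rw [hvp]; nlinarith
    have := (val_add_eq_of_vle p E hβp hlt hr).2
    rw [← hyr, hvp] at this
    nlinarith
  · rcases lt_or_ge (val p E β) (1 / ((p : ℝ) - 1)) with hsmall | hbig
    · have hr : Vle p E (1 + val p E β) r := vle_binom_pos p E hpos.le hvβ
      have hlt : val p E (β ^ p) < 1 + val p E β := by
        rw [hvp]
        rw [lt_div_iff₀ hp1] at hsmall
        nlinarith
      have := (val_add_eq_of_vle p E hβp hlt hr).2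
      rw [← hyr, hvp] at this
      rw [this]
      field_simp
    · exfalso
      have hr : Vle p E (1 + val p E β) r := vle_binom_pos p E hpos.le hvβ
      have hb : Vle p E (p * val p E β) (β ^ p) := hvβ.pow p E p
      have hge : (p : ℝ) / ((p : ℝ) - 1) ≤ 1 + val p E β := by
        rw [div_le_iff₀ hp1] at hbig
        rw [div_le_iff₀ hp1]
        nlinarith
      have hge2 : (p : ℝ) / ((p : ℝ) - 1) ≤ p * val p E β := by
        rw [div_le_iff₀ hp1] at hbig
        rw [div_le_iff₀ hp1]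
        nlinarith
      have hyv : Vle p E ((p : ℝ) / ((p : ℝ) - 1)) y := by
        rw [hyr]
        exact (hb.mono p E hge2).add p E (hr.mono p E hge)
      have := (vle_iff p E hy _).1 hyv
      linarith

/-- If `(1 + β)^p ≡ 1` modulo valuation `p/(p-1)`, then `val β ≥ 1/(p-1)`. -/
theorem vle_of_one_add_pow (β : E)
    (hy : Vle p E ((p : ℝ) / ((p : ℝ) - 1)) ((1 + β) ^ p - 1)) :
    Vle p E (1 / ((p : ℝ) - 1)) β := by
  have hp1 := p_sub_one_pos p
  have hpp := p_pos p
  by_cases hβ0 : β = 0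
  · rw [hβ0]; exact vle_zero p E _
  rw [vle_iff p E hβ0]
  by_contra hlt
  replace hlt := not_le.1 hlt
  set r := (1 + β) ^ p - 1 - β ^ p with hrdef
  have hyr : (1 + β) ^ p - 1 = β ^ p + r := by rw [hrdef]; ring
  have hβp : β ^ p ≠ 0 := pow_ne_zero _ hβ0
  have hvβ : Vle p E (val p E β) β := (vle_iff p E hβ0 _).2 le_rfl
  have hvp : val p E (β ^ p) = p * val p E β := val_pow p E β p
  have hpos : (0 : ℝ) < (p : ℝ) / ((p : ℝ) - 1) := by positivity
  rw [lt_div_iff₀ hp1] at hlt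
  rcases le_or_gt (val p E β) 0 with hneg | hpos'
  · have hr : Vle p E (1 + ((p : ℝ) - 1) * val p E β) r := vle_binom_neg p E hneg hvβ
    have hlt' : val p E (β ^ p) < 1 + ((p : ℝ) - 1) * val p E β := by rw [hvp]; nlinarith
    obtain ⟨hne, hv⟩ := val_add_eq_of_vle p E hβp hlt' hr
    rw [← hyr] at hne hv
    have := (vle_iff p E hne _).1 hy
    rw [hv, hvp] at this
    nlinarith
  · have hr : Vle p E (1 + val p E β) r := vle_binom_pos p E hpos'.le hvβ
    have hlt' : val p E (β ^ p) < 1 + val p E β := by rw [hvp]; nlinarith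
    obtain ⟨hne, hv⟩ := val_add_eq_of_vle p E hβp hlt' hr
    rw [← hyr] at hne hv
    have := (vle_iff p E hne _).1 hy
    rw [hv, hvp, div_le_iff₀ hp1] at this
    nlinarith

end Fermat.Agent.TW.Ram8.PthPower
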