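/-
TW (S56), brick B5-K (Kummer levels), helper8: the residue field of a `p`-adic field is perfect.

* `snorm_lt_one_iff_vle` : `‖x‖ < 1 ↔ 1/e ≤ val x` (discreteness);
* `charP_resF`           : the residue field `resF p F` has characteristic `p`;
* `exists_pow_sub_vle`   : every integer `x` is a `p`-th power modulo the maximal ideal.
-/
import Mathlib
import Fermat.Agent.TW.Ram8.PthPower
import Fermat.Agent.PT.LOC.Unram11

set_option autoImplicit false
set_option linter.unusedSectionVars false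

namespace Fermat.Agent.TW.Ram8.Residue

open scoped Fermat.Agent.PT.LOC.Interface12
open Fermat.Agent.PT.LOC.Interface12 Fermat.Agent.PT.LOC.Structure14
  Fermat.Agent.PT.LOC.StructureNorm14 Fermat.Agent.PT.LOC.RootsUnity14
  Fermat.Agent.PT.LOC.StructureTower27
  Fermat.Agent.PT.LOC.StructureTowerEF27 Fermat.Agent.PT.LOC.Unram11
  Fermat.Agent.TW.Ram8.Val Fermat.Agent.TW.Ram8.KIface

variable (p : ℕ) [hp : Fact p.Prime] (F : Type) [Field F] [Algebra ℚ_[p] F]
  [FiniteDimensional ℚ_[p] F]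

theorem eAbs_pos_real : (0 : ℝ) < (eAbs p F : ℝ) := by exact_mod_cast eAbs_pos p F

/-- Discreteness: `‖x‖ < 1` iff `val x ≥ 1/e`. -/
theorem snorm_lt_one_iff_vle (x : F) : snorm p F x < 1 ↔ Vle p F (1 / (eAbs p F : ℝ)) x := by
  obtain ⟨π, hπ⟩ := exists_isUniformizer p F
  rw [snorm_lt_one_iff_le_uniformizer p F (π : F) hπ x, Vle,
    snorm_eq_rpow p F hπ.2.1, val_uniformizer p F hπ]

theorem mem_mI_iff_vle (x : intRing p F) : x ∈ mI p F ↔ Vle p F (1 / (eAbs p F : ℝ)) (x : F) := by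
  rw [mem_mI_iff_snorm, snorm_lt_one_iff_vle]

theorem natCast_p_resF : ((p : ℕ) : resF p F) = 0 := by
  have h1 : ((p : ℕ) : resF p F) = Ideal.Quotient.mk (mI p F) ((p : ℕ) : intRing p F) := by
    rw [map_natCast]
  rw [h1, Ideal.Quotient.eq_zero_iff_mem]
  have := natCast_mem_maxId p F
  rwa [maxId_eq_maximalIdeal] at this

instance charP_resF : CharP (resF p F) p :=
  (CharP.charP_iff_prime_eq_zero hp.out).2 (natCast_p_resF p F)

/-- Every integer of `F` is a `p`-th power modulo the maximal ideal. -/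
theorem exists_pow_sub_vle (x : F) (hx : Vle p F 0 x) :
    ∃ y : F, Vle p F 0 y ∧ Vle p F (1 / (eAbs p F : ℝ)) (y ^ p - x) := by
  have hx' : x ∈ intRing p F := (mem_intRing_iff_vle p F x).2 hx
  obtain ⟨ybar, hy⟩ := (bijective_frobenius (resF p F) p).2
    (Ideal.Quotient.mk (mI p F) ⟨x, hx'⟩)
  obtain ⟨y, rfl⟩ := Ideal.Quotient.mk_surjective ybar
  refine ⟨(y : F), (mem_intRing_iff_vle p F _).1 y.2, ?_⟩
  rw [frobenius_def, ← map_pow, Ideal.Quotient.eq, mem_mI_iff_vle] at hy
  exact hy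

end Fermat.Agent.TW.Ram8.Residue
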