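/-
TW (S56), brick B5-K (Kummer levels), helper8: NORMAL FORM of an element of `F^×` modulo `p`-th
powers, up to level `e_F = ord_F p` (no root of unity needed):

`normalForm` : every `a ∈ F^×` satisfies one of
  (i)   `p ∤ ord_F a`;
  (ii)  `∃ b, a b^p = 1 + x`, `ord_F x = j`, `0 < j < e_F`, `p ∤ j`;
  (iii) `∃ b, a b^p ≡ 1 mod p 𝒪_F` (`PeuRam`).
-/
import Mathlib
import Fermat.Agent.TW.Ram8.Residue

set_option autoImplicit false
set_option linter.unusedSectionVars false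

namespace Fermat.Agent.TW.Ram8.NormalForm

open scoped Fermat.Agent.PT.LOC.Interface12
open Fermat.Agent.PT.LOC.Interface12 Fermat.Agent.PT.LOC.Structure14
  Fermat.Agent.PT.LOC.StructureNorm14 Fermat.Agent.PT.LOC.RootsUnity14
  Fermat.Agent.PT.LOC.StructureTowerEF27
  Fermat.Agent.TW.Ram8.Val Fermat.Agent.TW.Ram8.KIface Fermat.Agent.TW.Ram8.PthPower
  Fermat.Agent.TW.Ram8.Residue

variable (p : ℕ) [hp : Fact p.Prime] (F : Type) [Field F] [Algebra ℚ_[p] F]
  [FiniteDimensional ℚ_[p] F]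

theorem val_zpow (x : F) (n : ℤ) : val p F (x ^ n) = n * val p F x := by
  cases n with
  | ofNat k => simp [val_pow]
  | negSucc k =>
    rw [zpow_negSucc, val_inv, val_pow]
    push_cast
    ring

theorem val_eq_ordZ_div {a : F} (ha : a ≠ 0) :
    val p F a = (ordZ p F a : ℝ) / (eAbs p F : ℝ) := by
  rw [ordZ, dif_neg ha]
  exact val_eq_ord_div' p F ha

theorem vle_uniformizer_pow {π : F} (hπ : IsUniformizer p F π) (n : ℕ) :
    Vle p F ((n : ℝ) / (eAbs p F : ℝ)) (π ^ n) := by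
  have h1 : Vle p F (1 / (eAbs p F : ℝ)) π :=
    (vle_iff p F hπ.2.1 _).2 (val_uniformizer p F hπ).ge
  have := h1.pow p F n
  rwa [mul_one_div] at this

theorem val_uniformizer_pow {π : F} (hπ : IsUniformizer p F π) (n : ℕ) :
    val p F (π ^ n) = (n : ℝ) / (eAbs p F : ℝ) := by
  rw [val_pow, val_uniformizer p F hπ, mul_one_div]

/-- Division by a power of a uniformizer. -/
theorem exists_eq_mul_uniformizer_pow {π : F} (hπ : IsUniformizer p F π) (n : ℕ) {z : F}
    (hz : Vle p F ((n : ℝ) / (eAbs p F : ℝ)) z) : ∃ x : F, Vle p F 0 x ∧ z = x * π ^ n := by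
  have hπn : π ^ n ≠ 0 := pow_ne_zero _ hπ.2.1
  refine ⟨z / π ^ n, ?_, by field_simp⟩
  by_cases hz0 : z = 0
  · rw [hz0, zero_div]; exact vle_zero p F 0
  · rw [vle_iff p F (div_ne_zero hz0 hπn), val_div p F hz0 hπn, val_uniformizer_pow p F hπ]
    have := (vle_iff p F hz0 _).1 hz
    linarith

/-- (A) If `p ∣ ord a`, some `a b^p` is a unit. -/
theorem exists_unit_mul_pow (a : F) (ha : a ≠ 0) (hdvd : (p : ℤ) ∣ ordZ p F a) :
    ∃ b : F, b ≠ 0 ∧ val p F (a * b ^ p) = 0 := by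
  obtain ⟨m, hm⟩ := hdvd
  obtain ⟨π, hπ⟩ := exists_isUniformizer p F
  have he := eAbs_pos_real p F
  refine ⟨(π : F) ^ (-m), zpow_ne_zero _ hπ.2.1, ?_⟩
  rw [val_mul p F ha (pow_ne_zero _ (zpow_ne_zero _ hπ.2.1)), val_pow, val_zpow,
    val_uniformizer p F hπ, val_eq_ordZ_div p F ha, hm]
  push_cast
  field_simp
  ring

/-- (B) A unit becomes a `1`-unit after multiplication by a `p`-th power. -/
theorem exists_inU_one (a : F) (ha : a ≠ 0) (hv : val p F a = 0) :
    ∃ b : F, b ≠ 0 ∧ InU p F 1 (a * b ^ p) := by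
  have he := eAbs_pos_real p F
  have hainv : Vle p F 0 a⁻¹ := (vle_iff p F (inv_ne_zero ha) 0).2 (by rw [val_inv, hv, neg_zero])
  obtain ⟨y, -, hy⟩ := exists_pow_sub_vle p F a⁻¹ hainv
  have hav : Vle p F 0 a := (vle_iff p F ha 0).2 hv.ge
  have key : Vle p F (1 / (eAbs p F : ℝ)) (a * y ^ p - 1) := by
    have h1 : a * y ^ p - 1 = a * (y ^ p - a⁻¹) := by field_simp
    rw [h1]
    simpa using hav.mul p F hy
  refine ⟨y, ?_, ?_⟩
  · rintro rfl
    rw [zero_pow hp.out.ne_zero, mul_zero, zero_sub] at key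
    have h2 := (vle_iff p F (neg_ne_zero.2 one_ne_zero) _).1 key
    rw [val_neg, val_one] at h2
    have : 0 < 1 / (eAbs p F : ℝ) := by positivity
    linarith
  · unfold InU
    simpa using key

/-- (C) The step at a level divisible by `p`. -/
theorem exists_inU_succ (a : F) (j : ℕ) (hj0 : 0 < j) (hjT : j * (p - 1) < p * eAbs p F)
    (hpj : p ∣ j) (ha : InU p F j a) : ∃ b : F, b ≠ 0 ∧ InU p F (j + 1) (a * b ^ p) := by
  obtain ⟨m, rfl⟩ := hpj
  have he := eAbs_pos_real p F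
  have hm0 : 0 < m := Nat.pos_of_ne_zero (by rintro rfl; simp at hj0)
  obtain ⟨π, hπ⟩ := exists_isUniformizer p F
  obtain ⟨x, hx0, hx⟩ := exists_eq_mul_uniformizer_pow p F hπ (p * m) ha
  obtain ⟨y, hy0, hy⟩ := exists_pow_sub_vle p F (-x) hx0.neg
  set β : F := y * (π : F) ^ m with hβdef
  have hβ : Vle p F ((m : ℝ) / (eAbs p F : ℝ)) β := by
    simpa using hy0.mul p F (vle_uniformizer_pow p F hπ m)
  have hmpos : (0 : ℝ) ≤ (m : ℝ) / (eAbs p F : ℝ) := by positivity
  have hr := vle_binom_pos p F hmpos hβ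
  set r : F := (1 + β) ^ p - 1 - β ^ p with hrdef
  have hβp : β ^ p = y ^ p * (π : F) ^ (p * m) := by
    rw [hβdef, mul_pow, ← pow_mul, mul_comm m p]
  have hβpv : Vle p F (((p * m : ℕ) : ℝ) / (eAbs p F : ℝ)) (β ^ p) := by
    rw [hβp]
    simpa using (hy0.pow p F p).mul p F (vle_uniformizer_pow p F hπ (p * m))
  have hme : m * (p - 1) < eAbs p F := by
    have h1 : p * (m * (p - 1)) < p * eAbs p F := by
      calc p * (m * (p - 1)) = p * m * (p - 1) := by ring
        _ < p * eAbs p F := hjT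
    exact Nat.lt_of_mul_lt_mul_left h1
  have hme' : (m : ℝ) * ((p : ℝ) - 1) + 1 ≤ (eAbs p F : ℝ) := by
    have h2 : ((p - 1 : ℕ) : ℝ) = (p : ℝ) - 1 := by
      rw [Nat.cast_sub hp.out.one_le]; simp
    rw [← h2]
    exact_mod_cast hme
  have hj1 : (1 : ℝ) ≤ ((p * m : ℕ) : ℝ) := by exact_mod_cast hj0
  have hthr : (((p * m + 1 : ℕ) : ℝ)) / (eAbs p F : ℝ) ≤ 1 + (m : ℝ) / (eAbs p F : ℝ) := by
    rw [div_le_iff₀ he]
    push_cast
    have : (0 : ℝ) ≤ m := Nat.cast_nonneg m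
    field_simp
    linarith
  have h1e : 1 / (eAbs p F : ℝ) ≤ 1 := by
    rw [div_le_one he]
    exact_mod_cast eAbs_pos p F
  refine ⟨1 + β, ?_, ?_⟩
  · intro h0
    have hβ1 : β = -1 := by linear_combination h0
    rw [hβ1] at hβ
    have h2 := (vle_iff p F (neg_ne_zero.2 one_ne_zero) _).1 hβ
    rw [val_neg, val_one] at h2
    have : 0 < (m : ℝ) / (eAbs p F : ℝ) := by
      have : (0 : ℝ) < m := by exact_mod_cast hm0
      positivity
    linarith
  · unfold InU
    have hdecomp : a * (1 + β) ^ p - 1 =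
        (y ^ p - -x) * (π : F) ^ (p * m) + r + (a - 1) * (β ^ p + r) := by
      linear_combination hβp + hx - a * hrdef
    rw [hdecomp]
    have t1 : Vle p F (((p * m + 1 : ℕ) : ℝ) / (eAbs p F : ℝ))
        ((y ^ p - -x) * (π : F) ^ (p * m)) := by
      refine (hy.mul p F (vle_uniformizer_pow p F hπ (p * m))).mono p F ?_
      push_cast
      rw [← add_div]
      apply le_of_eq
      ring
    have t2 : Vle p F (((p * m + 1 : ℕ) : ℝ) / (eAbs p F : ℝ)) r := hr.mono p F hthr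
    have t3 : Vle p F (((p * m + 1 : ℕ) : ℝ) / (eAbs p F : ℝ)) ((a - 1) * (β ^ p + r)) := by
      have hsum : Vle p F (1 / (eAbs p F : ℝ)) (β ^ p + r) := by
        refine Vle.add p F (hβpv.mono p F ?_) (hr.mono p F ?_)
        · exact div_le_div_of_nonneg_right hj1 he.le
        · linarith
      refine (Vle.mul p F ha hsum).mono p F ?_
      push_cast
      rw [← add_div]
    exact (t1.add p F t2).add p F t3

theorem val_eq_of_inU_not_succ (a : F) (j : ℕ) (ha : InU p F j a) (hna : ¬ InU p F (j + 1) a) :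
    a ≠ 1 ∧ val p F (a - 1) = (j : ℝ) / (eAbs p F : ℝ) := by
  have he := eAbs_pos_real p F
  have ha1 : a - 1 ≠ 0 := by
    intro h0
    apply hna
    unfold InU
    rw [h0]
    exact vle_zero p F _
  refine ⟨sub_ne_zero.1 ha1, ?_⟩
  unfold InU at ha hna
  rw [vle_iff p F ha1] at ha hna
  rw [val_eq_ordZ_div p F ha1] at ha hna ⊢
  rw [div_le_div_iff_of_pos_right he] at ha hna
  have h1 : (j : ℤ) ≤ ordZ p F (a - 1) := by exact_mod_cast ha
  have h2 : ordZ p F (a - 1) < (j : ℤ) + 1 := by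
    by_contra hcon
    apply hna
    have : (j : ℤ) + 1 ≤ ordZ p F (a - 1) := not_lt.1 hcon
    exact_mod_cast this
  have h3 : ordZ p F (a - 1) = j := by omega
  rw [h3, Int.cast_natCast]

/-- Cases (ii) and (iii) of the normal form. -/
def Good (a : F) : Prop :=
  (∃ b : F, b ≠ 0 ∧ ∃ j : ℕ, 0 < j ∧ j < eAbs p F ∧ ¬ p ∣ j ∧ a * b ^ p ≠ 1 ∧
      val p F (a * b ^ p - 1) = (j : ℝ) / (eAbs p F : ℝ)) ∨
    PeuRam p F a

theorem good_of_mul_pow (a b : F) (hb : b ≠ 0) (h : Good p F (a * b ^ p)) : Good p F a := by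
  rcases h with ⟨b', hb', j, h1, h2, h3, h4, h5⟩ | ⟨b', hb', h1⟩
  · left
    refine ⟨b * b', mul_ne_zero hb hb', j, h1, h2, h3, ?_, ?_⟩
    · rwa [mul_pow, ← mul_assoc]
    · rwa [mul_pow, ← mul_assoc]
  · right
    refine ⟨b * b', mul_ne_zero hb hb', ?_⟩
    rwa [mul_pow, ← mul_assoc]

theorem good_of_inU : ∀ (d j : ℕ), 0 < j → j + d = eAbs p F → ∀ a : F, InU p F j a →
    Good p F a := by
  intro d
  induction d with
  | zero =>
    intro j _ hjd a ha
    right
    refine ⟨1, one_ne_zero, ?_⟩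
    have he := eAbs_pos_real p F
    unfold InU at ha
    rw [Nat.add_zero] at hjd
    rw [hjd, div_self he.ne'] at ha
    simpa [OneModP] using ha
  | succ d ih =>
    intro j hj0 hjd a ha
    by_cases hs : InU p F (j + 1) a
    · exact ih (j + 1) (Nat.succ_pos j) (by omega) a hs
    · obtain ⟨ha1, hv⟩ := val_eq_of_inU_not_succ p F a j ha hs
      by_cases hpj : p ∣ j
      · have hjT : j * (p - 1) < p * eAbs p F := by
          have hje : j < eAbs p F := by omega
          have hp1n : 0 < p - 1 := Nat.sub_pos_of_lt hp.out.one_lt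
          calc j * (p - 1) < eAbs p F * (p - 1) := Nat.mul_lt_mul_of_pos_right hje hp1n
            _ ≤ eAbs p F * p := Nat.mul_le_mul_left _ (Nat.sub_le p 1)
            _ = p * eAbs p F := Nat.mul_comm _ _
        obtain ⟨b, hb, hb'⟩ := exists_inU_succ p F a j hj0 hjT hpj ha
        exact good_of_mul_pow p F a b hb (ih (j + 1) (Nat.succ_pos j) (by omega) _ hb')
      · left
        exact ⟨1, one_ne_zero, j, hj0, by omega, hpj, by simpa using ha1, by simpa using hv⟩

/-- **Normal form modulo `p`-th powers.** -/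
theorem normalForm (a : F) (ha : a ≠ 0) :
    ¬ (p : ℤ) ∣ ordZ p F a ∨
    (∃ b : F, b ≠ 0 ∧ ∃ j : ℕ, 0 < j ∧ j < eAbs p F ∧ ¬ p ∣ j ∧ a * b ^ p ≠ 1 ∧
        val p F (a * b ^ p - 1) = (j : ℝ) / (eAbs p F : ℝ)) ∨
    PeuRam p F a := by
  by_cases hd : (p : ℤ) ∣ ordZ p F a
  · right
    obtain ⟨b0, hb0, hv⟩ := exists_unit_mul_pow p F a ha hd
    have ha0 : a * b0 ^ p ≠ 0 := mul_ne_zero ha (pow_ne_zero _ hb0)
    obtain ⟨b1, hb1, h1⟩ := exists_inU_one p F _ ha0 hv
    have hg := good_of_inU p F (eAbs p F - 1) 1 one_pos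
      (by have := eAbs_pos p F; omega) _ h1
    exact good_of_mul_pow p F _ b0 hb0 (good_of_mul_pow p F _ b1 hb1 hg)
  · left; exact hd

end Fermat.Agent.TW.Ram8.NormalForm
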