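/-
TW (S56), brick B5-K (Kummer levels), helper8: TOTALLY RAMIFIED extensions `M/F` of `p`-adic fields
(`ramIdx p F M = finrank F M = n`), `π` a uniformizer of `M`.

* `sum_ne_zero_of_unique_min` : a finite sum with a unique term of minimal valuation;
* `val_term_injective`        : the terms `a_i π^i` (`a_i ∈ F`, `i < n`) have distinct valuations;
* `exists_repr`               : every `x ∈ 𝒪_M` is `∑_{i<n} a_i π^i` with `a_i ∈ 𝒪_F`;
* `vle_galois_sub`            : (U1) `val (σ x - x) ≥ val (σ π - π)` for `x ∈ 𝒪_M`, `σ ∈ Gal(M/F)`;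
* `val_galois_sub_uniformizer_eq` : `val (σ π - π)` does not depend on the uniformizer `π`.
-/
import Mathlib
import Fermat.Agent.TW.Ram8.NormalForm

set_option autoImplicit false
set_option linter.unusedSectionVars false

namespace Fermat.Agent.TW.Ram8.TotRam

open scoped Fermat.Agent.PT.LOC.Interface12
open Fermat.Agent.PT.LOC.Interface12 Fermat.Agent.PT.LOC.Structure14
  Fermat.Agent.PT.LOC.StructureNorm14 Fermat.Agent.PT.LOC.RootsUnity14
  Fermat.Agent.PT.LOC.StructureTowerEF27
  Fermat.Agent.TW.Ram8.Val Fermat.Agent.TW.Ram8.KIface Fermat.Agent.TW.Ram8.PthPower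
  Fermat.Agent.TW.Ram8.Residue Fermat.Agent.TW.Ram8.NormalForm

variable (p : ℕ) [hp : Fact p.Prime]

section Sums

variable (E : Type) [Field E] [Algebra ℚ_[p] E] [FiniteDimensional ℚ_[p] E]

theorem zero_or_lt_val_sum {ι : Type*} (s : Finset ι) (f : ι → E) (v0 : ℝ)
    (h : ∀ i ∈ s, f i = 0 ∨ v0 < val p E (f i)) :
    ∑ i ∈ s, f i = 0 ∨ v0 < val p E (∑ i ∈ s, f i) := by
  classical
  induction s using Finset.induction_on with
  | empty => left; simp
  | insert a s ha ih =>
    rw [Finset.sum_insert ha]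
    have ih' := ih fun i hi => h i (Finset.mem_insert_of_mem hi)
    by_cases hfa : f a = 0
    · rw [hfa, zero_add]; exact ih'
    by_cases hs0 : ∑ i ∈ s, f i = 0
    · rw [hs0, add_zero]
      exact Or.inr ((h a (Finset.mem_insert_self a s)).resolve_left hfa)
    by_cases hsum : f a + ∑ i ∈ s, f i = 0
    · exact Or.inl hsum
    · right
      have h0 := (h a (Finset.mem_insert_self a s)).resolve_left hfa
      have h1 := ih'.resolve_left hs0
      exact lt_of_lt_of_le (lt_min h0 h1) (min_le_val_add p E hfa hs0 hsum)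

/-- A finite sum with a unique term of minimal valuation. -/
theorem sum_ne_zero_of_unique_min {ι : Type*} (s : Finset ι) (f : ι → E) (i0 : ι) (hi0 : i0 ∈ s)
    (h0 : f i0 ≠ 0) (h : ∀ i ∈ s, i ≠ i0 → f i = 0 ∨ val p E (f i0) < val p E (f i)) :
    ∑ i ∈ s, f i ≠ 0 ∧ val p E (∑ i ∈ s, f i) = val p E (f i0) := by
  classical
  rw [← Finset.add_sum_erase s f hi0]
  have hrest := zero_or_lt_val_sum p E (s.erase i0) f (val p E (f i0)) fun i hi =>
    h i (Finset.mem_of_mem_erase hi) (Finset.ne_of_mem_erase hi)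
  rcases hrest with h1 | h1
  · rw [h1, add_zero]; exact ⟨h0, rfl⟩
  · by_cases hr0 : ∑ i ∈ s.erase i0, f i = 0
    · rw [hr0, add_zero]; exact ⟨h0, rfl⟩
    · refine ⟨?_, val_add_eq_of_lt p E h0 hr0 h1⟩
      intro hsum
      have : ∑ i ∈ s.erase i0, f i = -f i0 := by linear_combination hsum
      rw [this, val_neg] at h1
      exact lt_irrefl _ h1

end Sums

section Tower

variable (F M : Type) [Field F] [Algebra ℚ_[p] F] [FiniteDimensional ℚ_[p] F]
  [Field M] [Algebra ℚ_[p] M] [FiniteDimensional ℚ_[p] M] [Algebra F M] [IsScalarTower ℚ_[p] F M]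

theorem eAbs_tower_real :
    (eAbs p M : ℝ) = (eAbs p F : ℝ) * (ramIdx p F M : ℝ) := by
  rw [eAbs_tower p F M]; push_cast; rfl

theorem ramIdx_pos_real : (0 : ℝ) < (ramIdx p F M : ℝ) := by
  exact_mod_cast ramIdx_pos p F M

/-- The valuation of a term `a π^i`, `a ∈ F^×`. -/
theorem val_term {π : M} (hπ : IsUniformizer p M π) {a : F} (ha : a ≠ 0) (i : ℕ) :
    val p M (algebraMap F M a * π ^ i) =
      ((ordZ p F a : ℝ) * (ramIdx p F M : ℝ) + (i : ℝ)) / (eAbs p M : ℝ) := by
  have ha' : algebraMap F M a ≠ 0 := by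
    rwa [Ne, map_eq_zero_iff _ (algebraMap F M).injective]
  have he := eAbs_pos_real p F
  have hn := ramIdx_pos_real p F M
  rw [val_mul p M ha' (pow_ne_zero _ hπ.2.1), val_algebraMap, val_eq_ordZ_div p F ha,
    val_uniformizer_pow p M hπ, eAbs_tower_real p F M]
  field_simp

/-- The terms `a_i π^i`, `i < e(M/F)`, have pairwise distinct valuations. -/
theorem val_term_injective {π : M} (hπ : IsUniformizer p M π) {a a' : F} (ha : a ≠ 0)
    (ha' : a' ≠ 0) {i i' : ℕ} (hi : i < ramIdx p F M) (hi' : i' < ramIdx p F M)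
    (h : val p M (algebraMap F M a * π ^ i) = val p M (algebraMap F M a' * π ^ i')) : i = i' := by
  rw [val_term p F M hπ ha, val_term p F M hπ ha'] at h
  have heM : (0 : ℝ) < (eAbs p M : ℝ) := eAbs_pos_real p M
  rw [div_left_inj' heM.ne'] at h
  have h2 : ordZ p F a * (ramIdx p F M : ℤ) + (i : ℤ) = ordZ p F a' * (ramIdx p F M : ℤ) + (i' : ℤ) := by
    exact_mod_cast h
  have h3 : (ordZ p F a * (ramIdx p F M : ℤ) + (i : ℤ)) % (ramIdx p F M : ℤ) =
      (ordZ p F a' * (ramIdx p F M : ℤ) + (i' : ℤ)) % (ramIdx p F M : ℤ) := by rw [h2]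
  rw [add_comm, Int.add_mul_emod_self_right, add_comm (ordZ p F a' * _), Int.add_mul_emod_self_right,
    Int.emod_eq_of_lt (by positivity) (by exact_mod_cast hi),
    Int.emod_eq_of_lt (by positivity) (by exact_mod_cast hi')] at h3
  exact_mod_cast h3

/-- A nontrivial combination `∑_{i<n} a_i π^i` is nonzero and its valuation is the minimum of the
valuations of its terms. -/
theorem sum_term_ne_zero {π : M} (hπ : IsUniformizer p M π) {n : ℕ} (hn : n ≤ ramIdx p F M)
    (a : Fin n → F) (h : ∃ i, a i ≠ 0) :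
    ∑ i, algebraMap F M (a i) * π ^ (i : ℕ) ≠ 0 ∧
      ∀ i, a i ≠ 0 → val p M (∑ i, algebraMap F M (a i) * π ^ (i : ℕ)) ≤
        val p M (algebraMap F M (a i) * π ^ (i : ℕ)) := by
  classical
  set f : Fin n → M := fun i => algebraMap F M (a i) * π ^ (i : ℕ) with hf
  have hne : (Finset.univ.filter fun i => a i ≠ 0).Nonempty := by
    obtain ⟨i, hi⟩ := h
    exact ⟨i, by simp [hi]⟩
  obtain ⟨i0, hi0, hmin⟩ := Finset.exists_min_image _ (fun i => val p M (f i)) hne
  rw [Finset.mem_filter] at hi0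
  have hfne : ∀ i, a i ≠ 0 → f i ≠ 0 := by
    intro i hi
    refine mul_ne_zero ?_ (pow_ne_zero _ hπ.2.1)
    rwa [Ne, map_eq_zero_iff _ (algebraMap F M).injective]
  have key := sum_ne_zero_of_unique_min p M Finset.univ f i0 (Finset.mem_univ _)
    (hfne i0 hi0.2) (by
      intro i _ hii0
      by_cases hai : a i = 0
      · left; simp [hf, hai]
      · right
        have hle := hmin i (by simp [hai])
        refine lt_of_le_of_ne hle ?_
        intro heq
        have := val_term_injective p F M hπ hi0.2 hai (lt_of_lt_of_le i0.2 hn)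
          (lt_of_lt_of_le i.2 hn) heq
        exact hii0 (Fin.ext this.symm))
  refine ⟨key.1, fun i hi => ?_⟩
  rw [key.2]
  exact hmin i (by simp [hi])

theorem linearIndependent_pow {π : M} (hπ : IsUniformizer p M π) {n : ℕ}
    (hn : n ≤ ramIdx p F M) : LinearIndependent F (fun i : Fin n => π ^ (i : ℕ)) := by
  rw [Fintype.linearIndependent_iff]
  intro g hg
  by_contra hcon
  have := (sum_term_ne_zero p F M hπ hn g (not_forall.1 hcon)).1
  apply this
  rw [← hg]
  exact Finset.sum_congr rfl fun i _ => (Algebra.smul_def _ _).symm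

/-- In a totally ramified extension every element is `∑_{i<n} a_i π^i`; integers have integral
coefficients. -/
theorem exists_repr (htot : ramIdx p F M = Module.finrank F M) {π : M}
    (hπ : IsUniformizer p M π) (x : M) :
    ∃ a : Fin (ramIdx p F M) → F, x = ∑ i, algebraMap F M (a i) * π ^ (i : ℕ) ∧
      (Vle p M 0 x → ∀ i, Vle p F 0 (a i)) := by
  have hli := linearIndependent_pow p F M hπ (le_refl (ramIdx p F M))
  have hcard : Fintype.card (Fin (ramIdx p F M)) = Module.finrank F M := by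
    rw [Fintype.card_fin, htot]
  have : Nonempty (Fin (ramIdx p F M)) := ⟨⟨0, ramIdx_pos p F M⟩⟩
  set b := basisOfLinearIndependentOfCardEqFinrank hli hcard with hb
  have hrepr : x = ∑ i, algebraMap F M (b.repr x i) * π ^ (i : ℕ) := by
    conv_lhs => rw [← b.sum_repr x]
    refine Finset.sum_congr rfl fun i _ => ?_
    rw [hb, coe_basisOfLinearIndependentOfCardEqFinrank, Algebra.smul_def]
  refine ⟨fun i => b.repr x i, hrepr, fun hx i => ?_⟩
  show Vle p F 0 (b.repr x i)
  by_cases hai : b.repr x i = 0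
  · rw [hai]; exact vle_zero p F 0
  · have hsum := sum_term_ne_zero p F M hπ (le_refl _) (fun i => b.repr x i) ⟨i, hai⟩
    rw [← hrepr] at hsum
    have h1 := hsum.2 i hai
    have h2 := (vle_iff p M hsum.1 0).1 hx
    rw [val_term p F M hπ hai] at h1
    have heM : (0 : ℝ) < (eAbs p M : ℝ) := eAbs_pos_real p M
    have h3 : (0 : ℝ) ≤ (ordZ p F (b.repr x i) : ℝ) * (ramIdx p F M : ℝ) + ((i : ℕ) : ℝ) := by
      have := le_trans h2 h1
      rwa [le_div_iff₀ heM, zero_mul] at this
    have h4 : (0 : ℤ) ≤ ordZ p F (b.repr x i) * (ramIdx p F M : ℤ) + ((i : ℕ) : ℤ) := by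
      exact_mod_cast h3
    have h5 : ((i : ℕ) : ℤ) < (ramIdx p F M : ℤ) := by exact_mod_cast i.2
    have h6 : 0 ≤ ordZ p F (b.repr x i) := by
      by_contra hneg
      have h7 : ordZ p F (b.repr x i) ≤ -1 := by omega
      have h8 : (0 : ℤ) < (ramIdx p F M : ℤ) := by exact_mod_cast ramIdx_pos p F M
      nlinarith
    rw [vle_iff p F hai, val_eq_ordZ_div p F hai]
    have he := eAbs_pos_real p F
    have : (0 : ℝ) ≤ (ordZ p F (b.repr x i) : ℝ) := by exact_mod_cast h6
    positivity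

/-- (U1) `val (σ x - x) ≥ val (σ π - π)` for integral `x`. -/
theorem vle_galois_sub (htot : ramIdx p F M = Module.finrank F M) {π : M}
    (hπ : IsUniformizer p M π) (σ : M ≃ₐ[F] M) {t : ℝ} (ht : Vle p M t (σ π - π)) {x : M}
    (hx : Vle p M 0 x) : Vle p M t (σ x - x) := by
  obtain ⟨a, hrepr, hint⟩ := exists_repr p F M htot hπ x
  have ha := hint hx
  have hπ0 : Vle p M 0 π := (mem_intRing_iff_vle p M π).1 hπ.1
  have hσπ0 : Vle p M 0 (σ π) := (vle_galois p F M σ 0 π).2 hπ0
  have hdiff : σ x - x = ∑ i, algebraMap F M (a i) * ((σ π) ^ (i : ℕ) - π ^ (i : ℕ)) := by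
    rw [hrepr, map_sum, ← Finset.sum_sub_distrib]
    refine Finset.sum_congr rfl fun i _ => ?_
    rw [map_mul, map_pow, AlgEquiv.commutes]
    ring
  rw [hdiff]
  refine Vle.sum p M _ _ t fun i _ => ?_
  have h1 : (σ π) ^ (i : ℕ) - π ^ (i : ℕ) =
      (∑ k ∈ Finset.range (i : ℕ), (σ π) ^ k * π ^ ((i : ℕ) - 1 - k)) * (σ π - π) :=
    ((Commute.all (σ π) π).geom_sum₂_mul (i : ℕ)).symm
  rw [h1]
  have h2 : Vle p M 0 (∑ k ∈ Finset.range (i : ℕ), (σ π) ^ k * π ^ ((i : ℕ) - 1 - k)) := by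
    refine Vle.sum p M _ _ 0 fun k _ => ?_
    simpa using (hσπ0.pow p M k).mul p M (hπ0.pow p M ((i : ℕ) - 1 - k))
  have h3 : Vle p M 0 (algebraMap F M (a i)) := (vle_algebraMap p F M 0 (a i)).2 (ha i)
  simpa using h3.mul p M (h2.mul p M ht)

/-- `val (σ π - π)` does not depend on the uniformizer `π` of a totally ramified extension. -/
theorem val_galois_sub_uniformizer_eq (htot : ramIdx p F M = Module.finrank F M) {π π' : M}
    (hπ : IsUniformizer p M π) (hπ' : IsUniformizer p M π') (σ : M ≃ₐ[F] M) (hne : σ π ≠ π) :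
    σ π' ≠ π' ∧ val p M (σ π' - π') = val p M (σ π - π) := by
  have hne' : σ π - π ≠ 0 := sub_ne_zero.2 hne
  have hπ0 : Vle p M 0 π := (mem_intRing_iff_vle p M π).1 hπ.1
  have hπ'0 : Vle p M 0 π' := (mem_intRing_iff_vle p M π').1 hπ'.1
  have hne2 : σ π' - π' ≠ 0 := by
    intro h0
    have h1 : Vle p M (val p M (σ π - π) + 1) (σ π' - π') := by rw [h0]; exact vle_zero p M _
    have h2 := vle_galois_sub p F M htot hπ' σ h1 hπ0
    have h3 := (vle_iff p M hne' _).1 h2
    linarith
  refine ⟨sub_ne_zero.1 hne2, le_antisymm ?_ ?_⟩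
  · have h1 : Vle p M (val p M (σ π' - π')) (σ π' - π') := (vle_iff p M hne2 _).2 le_rfl
    exact (vle_iff p M hne' _).1 (vle_galois_sub p F M htot hπ' σ h1 hπ0)
  · have h1 : Vle p M (val p M (σ π - π)) (σ π - π) := (vle_iff p M hne' _).2 le_rfl
    exact (vle_iff p M hne2 _).1 (vle_galois_sub p F M htot hπ σ h1 hπ'0)

end Tower

end Fermat.Agent.TW.Ram8.TotRam
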