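/-
TW (S56), brick B5-K (Kummer levels), helper8: the BREAK of a Kummer extension of degree `p`.

`F` a `p`-adic field containing a primitive `p`-th root of unity `ζ`, `M = F(α)`, `α^p = a ∈ F`.

* `hasBreak_core`     : a criterion: an element `z ∈ M` with `val z ∈ (1/(p e_F)) ℤ ∖ (1/e_F) ℤ` and
                         `σ z = (1 + δ) z`, `val δ = b / (p e_F)`, gives `HasBreak p F M b`;
* `hasBreak_of_ord`   : `p ∤ ord_F a`  ⟹ break `p e_F / (p - 1)`;
* `hasBreak_of_level` : `a = 1 + x`, `ord_F x = j`, `p ∤ j`, `j (p-1) < p e_F` ⟹ break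
                         `p e_F / (p - 1) - j`.
-/
import Mathlib
import Fermat.Agent.TW.Ram8.TotRam
import Fermat.Agent.PT.LOC.Unram11

set_option autoImplicit false
set_option linter.unusedSectionVars false

namespace Fermat.Agent.TW.Ram8.Break

open scoped Fermat.Agent.PT.LOC.Interface12
open Fermat.Agent.PT.LOC.Interface12 Fermat.Agent.PT.LOC.Structure14
  Fermat.Agent.PT.LOC.StructureNorm14 Fermat.Agent.PT.LOC.RootsUnity14
  Fermat.Agent.PT.LOC.StructureTowerEF27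
  Fermat.Agent.TW.Ram8.Val Fermat.Agent.TW.Ram8.KIface Fermat.Agent.TW.Ram8.PthPower
  Fermat.Agent.TW.Ram8.Residue Fermat.Agent.TW.Ram8.NormalForm Fermat.Agent.TW.Ram8.TotRam
  Fermat.Agent.TW.Ram8.Cyclo

variable (p : ℕ) [hp : Fact p.Prime]

section OneField

variable (E : Type) [Field E] [Algebra ℚ_[p] E] [FiniteDimensional ℚ_[p] E]

theorem val_natCast_of_not_dvd {s : ℕ} (hs : ¬ p ∣ s) : (s : E) ≠ 0 ∧ val p E (s : E) = 0 := by
  have h1 : snorm p E (s : E) = 1 := snorm_natCast_eq_one p E hs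
  have h0 : (s : E) ≠ 0 := by
    intro h; rw [h, snorm_zero] at h1; exact zero_ne_one h1
  exact ⟨h0, by rw [val, h1, Real.logb_one, neg_zero]⟩

theorem vle_one_add_pow_sub_one {δ : E} {c : ℝ} (hc : 0 ≤ c) (hδ : Vle p E c δ) (i : ℕ) :
    Vle p E c ((1 + δ) ^ i - 1) := by
  have h1 : Vle p E 0 (1 + δ) := (vle_one p E).add p E (hδ.mono p E hc)
  have h2 : Vle p E c (1 - (1 + δ)) := by
    have : 1 - (1 + δ) = -δ := by ring
    rw [this]; exact hδ.neg p E
  have := (vle_one_sub_pow p E h1 h2 i).neg p E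
  rwa [neg_sub] at this

/-- `val ((1 + δ)^s - 1) = val δ` if `val δ > 0` and `p ∤ s`. -/
theorem val_one_add_pow_sub_one {δ : E} (hδ0 : δ ≠ 0) (hδ : 0 < val p E δ) {s : ℕ}
    (hs : ¬ p ∣ s) : (1 + δ) ^ s - 1 ≠ 0 ∧ val p E ((1 + δ) ^ s - 1) = val p E δ := by
  have hgeom : (1 + δ) ^ s - 1 = (∑ i ∈ Finset.range s, (1 + δ) ^ i) * δ := by
    have := geom_sum_mul (1 + δ) s
    rw [add_sub_cancel_left] at this
    exact this.symm
  have hvδ : Vle p E (val p E δ) δ := (vle_iff p E hδ0 _).2 le_rfl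
  have hsum : ∑ i ∈ Finset.range s, (1 + δ) ^ i = (s : E) +
      ∑ i ∈ Finset.range s, ((1 + δ) ^ i - 1) := by
    rw [Finset.sum_sub_distrib, Finset.sum_const, Finset.card_range, nsmul_eq_mul, mul_one]
    ring
  have hrest : Vle p E (val p E δ) (∑ i ∈ Finset.range s, ((1 + δ) ^ i - 1)) :=
    Vle.sum p E _ _ _ fun i _ => vle_one_add_pow_sub_one p E hδ.le hvδ i
  obtain ⟨hs0, hsv⟩ := val_natCast_of_not_dvd p E hs
  have hdom := val_add_eq_of_vle p E hs0 (by rw [hsv]; exact hδ) hrest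
  rw [← hsum] at hdom
  rw [hgeom]
  refine ⟨mul_ne_zero hdom.1 hδ0, ?_⟩
  rw [val_mul p E hdom.1 hδ0, hdom.2, hsv, zero_add]

end OneField

/-- Bezout with a natural first coefficient prime to `p`. -/
theorem exists_bezout {n : ℤ} (hn : ¬ (p : ℤ) ∣ n) :
    ∃ (s : ℕ) (t : ℤ), ¬ p ∣ s ∧ (s : ℤ) * n + t * p = 1 := by
  have hcop : IsCoprime n (p : ℤ) := by
    rw [isCoprime_comm]
    exact (Nat.prime_iff_prime_int.1 hp.out).coprime_iff_not_dvd.2 hn
  obtain ⟨u, v, huv⟩ := hcop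
  have hp0 : (0 : ℤ) < p := by exact_mod_cast hp.out.pos
  refine ⟨(u % p).toNat, v + (u / p) * n, ?_, ?_⟩
  · intro hdvd
    have h1 : ((u % p).toNat : ℤ) = u % p := Int.toNat_of_nonneg (Int.emod_nonneg _ hp0.ne')
    have h2 : (p : ℤ) ∣ u % p := by rw [← h1]; exact_mod_cast hdvd
    have h3 : (p : ℤ) ∣ u := by
      rw [← Int.emod_add_mul_ediv u p]
      exact dvd_add h2 (Dvd.intro _ rfl)
    have h4 : (p : ℤ) ∣ 1 := by
      rw [← huv]
      exact dvd_add (Dvd.dvd.mul_right h3 _) (Dvd.intro_left _ rfl)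
    have := Int.eq_one_of_dvd_one hp0.le h4
    have h5 : p = 1 := by exact_mod_cast this
    exact hp.out.one_lt.ne' h5
  · rw [Int.toNat_of_nonneg (Int.emod_nonneg _ hp0.ne')]
    have := Int.emod_add_mul_ediv u p
    linear_combination huv + n * this

section Tower

variable (F M : Type) [Field F] [Algebra ℚ_[p] F] [FiniteDimensional ℚ_[p] F]
  [Field M] [Algebra ℚ_[p] M] [FiniteDimensional ℚ_[p] M] [Algebra F M] [IsScalarTower ℚ_[p] F M]

/-- An element whose valuation has exact denominator `p` forces `p ∣ e(M/F)`. -/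
theorem dvd_ramIdx_of_val {z : M} (hz : z ≠ 0) {n : ℤ} (hn : ¬ (p : ℤ) ∣ n)
    (hval : val p M z = (n : ℝ) / ((p : ℝ) * (eAbs p F : ℝ))) : p ∣ ramIdx p F M := by
  have he := eAbs_pos_real p F
  have hr := ramIdx_pos_real p F M
  have hpp := p_pos p
  rw [val_eq_ordZ_div p M hz, eAbs_tower_real p F M, div_eq_div_iff (by positivity) (by positivity)]
    at hval
  have h1 : (ordZ p M z : ℝ) * (p : ℝ) = (n : ℝ) * (ramIdx p F M : ℝ) := by
    have h2 : (ordZ p M z : ℝ) * (p : ℝ) * (eAbs p F : ℝ) =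
        (n : ℝ) * (ramIdx p F M : ℝ) * (eAbs p F : ℝ) := by linarith
    exact mul_right_cancel₀ he.ne' h2
  have h2 : ordZ p M z * (p : ℤ) = n * (ramIdx p F M : ℤ) := by exact_mod_cast h1
  have h3 : (p : ℤ) ∣ n * (ramIdx p F M : ℤ) := Dvd.intro_left _ h2
  have h4 := ((Nat.prime_iff_prime_int.1 hp.out).dvd_or_dvd h3).resolve_left hn
  exact_mod_cast h4

theorem ramIdx_le_finrank : ramIdx p F M ≤ Module.finrank F M := by
  rw [← ramIdx_mul_resDeg p F M]
  exact Nat.le_mul_of_pos_right _ (resDeg_pos p F M)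

/-- **Criterion for `HasBreak`.** -/
theorem hasBreak_core (hgal : IsGalois F M) (hfin : Module.finrank F M ≤ p) {z : M} (hz : z ≠ 0)
    {n : ℤ}
    (hn : ¬ (p : ℤ) ∣ n) (hval : val p M z = (n : ℝ) / ((p : ℝ) * (eAbs p F : ℝ))) (b : ℕ)
    (hb : 0 < b)
    (hσ : ∀ σ : M ≃ₐ[F] M, σ ≠ 1 → ∃ δ : M, δ ≠ 0 ∧ σ z = (1 + δ) * z ∧
      val p M δ = (b : ℝ) / ((p : ℝ) * (eAbs p F : ℝ))) :
    HasBreak p F M b := by
  have he := eAbs_pos_real p F
  have hpp := p_pos p
  have hdvd := dvd_ramIdx_of_val p F M hz hn hval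
  have hle := ramIdx_le_finrank p F M
  have hram : ramIdx p F M = p :=
    le_antisymm (hle.trans hfin) (Nat.le_of_dvd (ramIdx_pos p F M) hdvd)
  have hfr : Module.finrank F M = p := le_antisymm hfin (hram ▸ hle)
  have htot : ramIdx p F M = Module.finrank F M := by rw [hram, hfr]
  have heM : (eAbs p M : ℝ) = (p : ℝ) * (eAbs p F : ℝ) := by
    rw [eAbs_tower_real p F M, hram, mul_comm]
  refine ⟨hgal, hfr, hram, ?_⟩
  intro σ hσ1 π₁ hπ₁
  obtain ⟨δ, hδ0, hσz, hδv⟩ := hσ σ hσ1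
  obtain ⟨s, t, hs, hst⟩ := exists_bezout p hn
  obtain ⟨ϖ, hϖ⟩ := exists_isUniformizer p F
  have hϖ0 : algebraMap F M (ϖ : F) ≠ 0 := by
    rw [Ne, map_eq_zero_iff _ (algebraMap F M).injective]; exact hϖ.2.1
  set π₀ : M := z ^ s * (algebraMap F M (ϖ : F)) ^ t with hπ₀def
  have hπ₀0 : π₀ ≠ 0 := mul_ne_zero (pow_ne_zero _ hz) (zpow_ne_zero _ hϖ0)
  have hπ₀v : val p M π₀ = 1 / (eAbs p M : ℝ) := by
    rw [hπ₀def, val_mul p M (pow_ne_zero _ hz) (zpow_ne_zero _ hϖ0), val_pow, val_zpow,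
      val_algebraMap, val_uniformizer p F hϖ, hval, heM]
    have hst' : (s : ℝ) * (n : ℝ) + (t : ℝ) * (p : ℝ) = 1 := by exact_mod_cast hst
    field_simp
    linarith
  have hπ₀ : IsUniformizer p M π₀ := (isUniformizer_iff_val p M hπ₀0).2 hπ₀v
  have hδpos : 0 < val p M δ := by
    rw [hδv]
    have : (0 : ℝ) < b := by exact_mod_cast hb
    positivity
  obtain ⟨hpow0, hpowv⟩ := val_one_add_pow_sub_one p M hδ0 hδpos hs
  have hσπ₀ : σ π₀ - π₀ = ((1 + δ) ^ s - 1) * π₀ := by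
    rw [hπ₀def, map_mul, map_pow, map_zpow₀, AlgEquiv.commutes, hσz, mul_pow]
    ring
  have hne₀ : σ π₀ ≠ π₀ := by
    rw [← sub_ne_zero, hσπ₀]
    exact mul_ne_zero hpow0 hπ₀0
  obtain ⟨hne₁, hv₁⟩ := val_galois_sub_uniformizer_eq p F M htot hπ₀ hπ₁ σ hne₀
  refine ⟨hne₁, ?_⟩
  rw [hv₁, hσπ₀, val_mul p M hpow0 hπ₀0, hpowv, hπ₀v, hδv, heM]
  field_simp

end Tower

section Kummer

open Polynomial

variable (F M : Type) [Field F] [Algebra ℚ_[p] F] [FiniteDimensional ℚ_[p] F]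
  [Field M] [Algebra ℚ_[p] M] [FiniteDimensional ℚ_[p] M] [Algebra F M] [IsScalarTower ℚ_[p] F M]

theorem finrank_le_of_gen {a : F} {α : M} (hα : α ^ p = algebraMap F M a)
    (hgen : IntermediateField.adjoin F {α} = ⊤) : Module.finrank F M ≤ p := by
  have : FiniteDimensional F M := Fermat.Agent.PT.LOC.Unram11.finiteDimensional_tower p F M
  have hint : IsIntegral F α := IsIntegral.of_finite F α
  rw [← IntermediateField.finrank_top', ← hgen, IntermediateField.adjoin.finrank hint]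
  have hdvd : minpoly F α ∣ X ^ p - C a := minpoly.dvd F α (by simp [hα])
  have := Polynomial.natDegree_le_of_dvd hdvd (X_pow_sub_C_ne_zero hp.out.pos a)
  rwa [natDegree_X_pow_sub_C] at this

theorem eq_one_of_fix_gen [FiniteDimensional F M] {α : M}
    (hgen : IntermediateField.adjoin F {α} = ⊤) (σ : M ≃ₐ[F] M)
    (h : σ α = α) : σ = 1 := by
  have h1 : Algebra.adjoin F {α} = ⊤ := IntermediateField.adjoin_eq_top_iff.1 hgen
  have h2 : (σ : M →ₐ[F] M) = AlgHom.id F M := by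
    refine AlgHom.ext_of_adjoin_eq_top h1 ?_
    intro x hx
    rw [Set.mem_singleton_iff] at hx
    subst hx
    simpa using h
  ext x
  exact DFunLike.congr_fun h2 x

/-- A Kummer extension `F(α)`, `α^p ∈ F^×`, `ζ_p ∈ F`, is Galois. -/
theorem isGalois_of_gen {ζ : F} (hζ : IsPrimitiveRoot ζ p) {a : F} (ha : a ≠ 0) {α : M}
    (hα : α ^ p = algebraMap F M a) (hgen : IntermediateField.adjoin F {α} = ⊤) :
    IsGalois F M := by
  have : FiniteDimensional F M := Fermat.Agent.PT.LOC.Unram11.finiteDimensional_tower p F M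
  have : CharZero F := Fermat.Agent.PT.LOC.UnramDef12.charZero_of_padicAlgebra p F
  have hsplit : IsSplittingField F M (X ^ p - C a) := by
    constructor
    · rw [Polynomial.map_sub, Polynomial.map_pow, Polynomial.map_C, Polynomial.map_X]
      exact X_pow_sub_C_splits_of_isPrimitiveRoot
        (hζ.map_of_injective (algebraMap F M).injective) hα
    · rw [eq_top_iff, ← IntermediateField.top_toSubalgebra, ← hgen,
        IntermediateField.adjoin_simple_toSubalgebra_of_isAlgebraic (IsAlgebraic.of_finite F α)]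
      apply Algebra.adjoin_mono
      rw [Set.singleton_subset_iff, mem_rootSet_of_ne (X_pow_sub_C_ne_zero hp.out.pos a),
        aeval_def, eval₂_sub, eval₂_X_pow, eval₂_C, hα, sub_self]
  have hsep : (X ^ p - C a : F[X]).Separable :=
    separable_X_pow_sub_C a (by exact_mod_cast hp.out.ne_zero) ha
  exact IsGalois.of_separable_splitting_field hsep

theorem exists_pow_mul {ζ : F} (hζ : IsPrimitiveRoot ζ p) {a : F} (ha : a ≠ 0) {α : M}
    (hα : α ^ p = algebraMap F M a) (σ : M ≃ₐ[F] M) :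
    ∃ k : ℕ, k < p ∧ σ α = algebraMap F M (ζ ^ k) * α := by
  have hα0 : α ≠ 0 := by
    rintro rfl
    rw [zero_pow hp.out.ne_zero] at hα
    exact ha ((map_eq_zero_iff _ (algebraMap F M).injective).1 hα.symm)
  have hζM : IsPrimitiveRoot (algebraMap F M ζ) p := hζ.map_of_injective (algebraMap F M).injective
  have h1 : (σ α / α) ^ p = 1 := by
    rw [div_pow, ← map_pow, hα, AlgEquiv.commutes, div_self]
    rw [Ne, map_eq_zero_iff _ (algebraMap F M).injective]; exact ha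
  obtain ⟨k, hk, hk'⟩ := hζM.eq_pow_of_pow_eq_one h1
  refine ⟨k, hk, ?_⟩
  rw [map_pow, hk', div_mul_cancel₀ _ hα0]

/-- `T (p - 1) = p e_F` for `T = p e_F / (p - 1)`. -/
theorem top_mul {ζ : F} (hζ : IsPrimitiveRoot ζ p) :
    p * eAbs p F / (p - 1) * (p - 1) = p * eAbs p F :=
  Nat.div_mul_cancel (Dvd.dvd.mul_left (pred_dvd_eAbs p F ζ hζ) p)

theorem top_real {ζ : F} (hζ : IsPrimitiveRoot ζ p) :
    ((p * eAbs p F / (p - 1) : ℕ) : ℝ) = (p : ℝ) * (eAbs p F : ℝ) / ((p : ℝ) - 1) := by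
  have h := top_mul p F hζ
  have hp1 := p_sub_one_pos p
  rw [eq_div_iff hp1.ne']
  have h2 : ((p - 1 : ℕ) : ℝ) = (p : ℝ) - 1 := by
    rw [Nat.cast_sub hp.out.one_le]; simp
  rw [← h2]
  exact_mod_cast h

/-- The `δ` of a non-trivial automorphism: `val (ζ^k - 1) = 1/(p-1)` for `0 < k < p`. -/
theorem val_zeta_pow_sub_one {ζ : F} (hζ : IsPrimitiveRoot ζ p) {k : ℕ} (hk0 : k ≠ 0) (hk : k < p) :
    algebraMap F M (ζ ^ k) - 1 ≠ 0 ∧
      val p M (algebraMap F M (ζ ^ k) - 1) = 1 / ((p : ℝ) - 1) := by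
  have hcop : Nat.Coprime k p := by
    rw [Nat.coprime_comm, Nat.Prime.coprime_iff_not_dvd hp.out]
    intro hdvd
    exact absurd (Nat.le_of_dvd (Nat.pos_of_ne_zero hk0) hdvd) (not_le.2 hk)
  have hprim : IsPrimitiveRoot (algebraMap F M (ζ ^ k)) p :=
    (hζ.pow_of_coprime k hcop).map_of_injective (algebraMap F M).injective
  exact ⟨primitiveRoot_sub_one_ne_zero p M hprim, val_primitiveRoot_sub_one p M hprim⟩

/-- **Break formula, case `p ∤ ord a`.** -/
theorem hasBreak_of_ord (ζ : F) (hζ : IsPrimitiveRoot ζ p) (a : F) (ha : a ≠ 0)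
    (hord : ¬ (p : ℤ) ∣ ordZ p F a) (α : M) (hα : α ^ p = algebraMap F M a)
    (hgen : IntermediateField.adjoin F {α} = ⊤) :
    HasBreak p F M (p * eAbs p F / (p - 1)) := by
  have he := eAbs_pos_real p F
  have hpp := p_pos p
  have hp1 := p_sub_one_pos p
  have hα0 : α ≠ 0 := by
    rintro rfl
    rw [zero_pow hp.out.ne_zero] at hα
    exact ha ((map_eq_zero_iff _ (algebraMap F M).injective).1 hα.symm)
  have hvalα : val p M α = (ordZ p F a : ℝ) / ((p : ℝ) * (eAbs p F : ℝ)) := by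
    have h1 : val p M (α ^ p) = val p F a := by rw [hα, val_algebraMap]
    rw [val_pow, val_eq_ordZ_div p F ha] at h1
    field_simp at h1 ⊢
    linarith
  have hTpos : 0 < p * eAbs p F / (p - 1) := by
    have h := top_mul p F hζ
    have : 0 < p * eAbs p F := Nat.mul_pos hp.out.pos (eAbs_pos p F)
    by_contra h0
    rw [Nat.eq_zero_of_not_pos h0, zero_mul] at h
    omega
  refine hasBreak_core p F M (isGalois_of_gen p F M hζ ha hα hgen)
    (finrank_le_of_gen p F M hα hgen) hα0 hord hvalα _ hTpos ?_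
  intro σ hσ
  obtain ⟨k, hk, hσα⟩ := exists_pow_mul p F M hζ ha hα σ
  have hk0 : k ≠ 0 := by
    rintro rfl
    apply hσ
    have : FiniteDimensional F M := Fermat.Agent.PT.LOC.Unram11.finiteDimensional_tower p F M
    apply eq_one_of_fix_gen F M hgen σ
    simpa using hσα
  obtain ⟨hδ0, hδv⟩ := val_zeta_pow_sub_one p F M hζ hk0 hk
  refine ⟨algebraMap F M (ζ ^ k) - 1, hδ0, by rw [hσα]; ring, ?_⟩
  rw [hδv, top_real p F hζ]
  field_simp

/-- **Break formula, case of level `j`, `p ∤ j`, `j (p - 1) < p e_F`.** -/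
theorem hasBreak_of_level (ζ : F) (hζ : IsPrimitiveRoot ζ p) (a : F) (j : ℕ) (hj0 : 0 < j)
    (hjT : j * (p - 1) < p * eAbs p F) (hpj : ¬ p ∣ j) (ha1 : a ≠ 1)
    (hval : val p F (a - 1) = (j : ℝ) / (eAbs p F : ℝ)) (α : M) (hα : α ^ p = algebraMap F M a)
    (hgen : IntermediateField.adjoin F {α} = ⊤) :
    HasBreak p F M (p * eAbs p F / (p - 1) - j) := by
  have he := eAbs_pos_real p F
  have hpp := p_pos p
  have hp1 := p_sub_one_pos p
  have hjpos : (0 : ℝ) < j := by exact_mod_cast hj0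
  have ha1' : a - 1 ≠ 0 := sub_ne_zero.2 ha1
  have hjT' : (j : ℝ) * ((p : ℝ) - 1) < (p : ℝ) * (eAbs p F : ℝ) := by
    have h2 : ((p - 1 : ℕ) : ℝ) = (p : ℝ) - 1 := by
      rw [Nat.cast_sub hp.out.one_le]; simp
    rw [← h2]
    exact_mod_cast hjT
  -- `a` is a unit
  have hva : a ≠ 0 ∧ val p F a = 0 := by
    have h1 : a = 1 + (a - 1) := by ring
    have h2 : val p F (1 : F) < val p F (a - 1) := by
      rw [val_one, hval]; positivity
    have h3 := val_add_eq_of_lt p F one_ne_zero ha1' h2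
    rw [← h1, val_one] at h3
    refine ⟨?_, h3⟩
    rintro rfl
    rw [zero_sub, val_neg, val_one] at hval
    have : (0 : ℝ) < (j : ℝ) / (eAbs p F : ℝ) := by positivity
    linarith
  have hα0 : α ≠ 0 := by
    rintro rfl
    rw [zero_pow hp.out.ne_zero] at hα
    exact hva.1 ((map_eq_zero_iff _ (algebraMap F M).injective).1 hα.symm)
  have hvalα : val p M α = 0 := by
    have h1 : val p M (α ^ p) = val p F a := by rw [hα, val_algebraMap]
    rw [val_pow, hva.2] at h1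
    rcases mul_eq_zero.1 h1 with h | h
    · exact absurd h hpp.ne'
    · exact h
  -- `β = α - 1`
  set β : M := α - 1 with hβdef
  have hαβ : α = 1 + β := by rw [hβdef]; ring
  have hy : (1 + β) ^ p - 1 = algebraMap F M (a - 1) := by
    rw [← hαβ, hα, map_sub, map_one]
  have hyne : (1 + β) ^ p - 1 ≠ 0 := by
    rw [hy, Ne, map_eq_zero_iff _ (algebraMap F M).injective]; exact ha1'
  have hyv : val p M ((1 + β) ^ p - 1) = (j : ℝ) / (eAbs p F : ℝ) := by
    rw [hy, val_algebraMap, hval]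
  obtain ⟨hβ0, hβv⟩ := val_of_one_add_pow p M β hyne (by rw [hyv]; positivity) (by
    rw [hyv, div_lt_div_iff₀ he hp1]
    linarith)
  rw [hyv] at hβv
  have hβv' : val p M β = ((j : ℤ) : ℝ) / ((p : ℝ) * (eAbs p F : ℝ)) := by
    rw [hβv]
    push_cast
    field_simp
  have hjle : j ≤ p * eAbs p F / (p - 1) := by
    have h := top_mul p F hζ
    have hp1n : 0 < p - 1 := Nat.sub_pos_of_lt hp.out.one_lt
    by_contra hcon
    have h3 : p * eAbs p F / (p - 1) < j := not_le.1 hcon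
    have h4 : p * eAbs p F / (p - 1) * (p - 1) < j * (p - 1) := Nat.mul_lt_mul_of_pos_right h3 hp1n
    omega
  have hblt : 0 < p * eAbs p F / (p - 1) - j := by
    have h := top_mul p F hζ
    have hp1n : 0 < p - 1 := Nat.sub_pos_of_lt hp.out.one_lt
    by_contra hcon
    have h3 : p * eAbs p F / (p - 1) = j := by omega
    rw [h3] at h
    omega
  refine hasBreak_core p F M (isGalois_of_gen p F M hζ hva.1 hα hgen)
    (finrank_le_of_gen p F M hα hgen) hβ0 (by exact_mod_cast hpj) hβv' _ hblt ?_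
  intro σ hσ
  obtain ⟨k, hk, hσα⟩ := exists_pow_mul p F M hζ hva.1 hα σ
  have hk0 : k ≠ 0 := by
    rintro rfl
    apply hσ
    have : FiniteDimensional F M := Fermat.Agent.PT.LOC.Unram11.finiteDimensional_tower p F M
    apply eq_one_of_fix_gen F M hgen σ
    simpa using hσα
  obtain ⟨hδ0, hδv⟩ := val_zeta_pow_sub_one p F M hζ hk0 hk
  refine ⟨(algebraMap F M (ζ ^ k) - 1) * α / β,
    div_ne_zero (mul_ne_zero hδ0 hα0) hβ0, ?_, ?_⟩
  · have h1 : (1 + (algebraMap F M (ζ ^ k) - 1) * α / β) * β =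
        β + (algebraMap F M (ζ ^ k) - 1) * α := by
      rw [add_mul, one_mul, div_mul_cancel₀ _ hβ0]
    rw [h1, hβdef, map_sub, map_one, hσα]
    ring
  · rw [val_div p M (mul_ne_zero hδ0 hα0) hβ0, val_mul p M hδ0 hα0, hδv, hvalα, hβv,
      Nat.cast_sub hjle, top_real p F hζ]
    field_simp
    ring

end Kummer

end Fermat.Agent.TW.Ram8.Break
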