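/-
TW (S56), brick B5-K (Kummer levels), helper8: **KummerLevel** in the abstract model.

`F ⊆ F₂ ⊆ L` `p`-adic fields, `ζ_p ∈ F`, `F₂/F` unramified, `BreakBound p F₂ L`
(every degree-`p` totally ramified `M/F₂` inside `L` has break `b` with `b (p-1) ≤ e`).
Then every `a ∈ F^×` with a `p`-th root in `L` lies in `(1 + p 𝒪_F) · F^{×p}`.
-/
import Mathlib
import Fermat.Agent.TW.Ram8.Break

set_option autoImplicit false
set_option linter.unusedSectionVars false

namespace Fermat.Agent.TW.Ram8.Level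

open scoped Fermat.Agent.PT.LOC.Interface12
open Fermat.Agent.PT.LOC.Interface12 Fermat.Agent.PT.LOC.Structure14
  Fermat.Agent.PT.LOC.StructureNorm14 Fermat.Agent.PT.LOC.RootsUnity14
  Fermat.Agent.PT.LOC.StructureTowerEF27
  Fermat.Agent.TW.Ram8.Val Fermat.Agent.TW.Ram8.KIface Fermat.Agent.TW.Ram8.PthPower
  Fermat.Agent.TW.Ram8.Residue Fermat.Agent.TW.Ram8.NormalForm Fermat.Agent.TW.Ram8.TotRam
  Fermat.Agent.TW.Ram8.Cyclo Fermat.Agent.TW.Ram8.Break

variable (p : ℕ) [hp : Fact p.Prime]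

open IntermediateField in
theorem adjoin_gen_eq_top (K E : Type*) [Field K] [Field E] [Algebra K E] (α : E) :
    IntermediateField.adjoin K {IntermediateField.AdjoinSimple.gen K α} = ⊤ := by
  apply IntermediateField.map_injective (IntermediateField.val K⟮α⟯)
  rw [IntermediateField.adjoin_map, Set.image_singleton, ← AlgHom.fieldRange_eq_map,
    IntermediateField.fieldRange_val]
  rfl

section Unram

variable (F F₂ : Type) [Field F] [Algebra ℚ_[p] F] [FiniteDimensional ℚ_[p] F]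
  [Field F₂] [Algebra ℚ_[p] F₂] [FiniteDimensional ℚ_[p] F₂] [Algebra F F₂]
  [IsScalarTower ℚ_[p] F F₂]

theorem eAbs_of_unram (hunr : ramIdx p F F₂ = 1) : eAbs p F₂ = eAbs p F := by
  rw [eAbs_tower p F F₂, hunr, mul_one]

theorem ordZ_algebraMap_of_unram (hunr : ramIdx p F F₂ = 1) {a : F} (ha : a ≠ 0) :
    ordZ p F₂ (algebraMap F F₂ a) = ordZ p F a := by
  have ha' : algebraMap F F₂ a ≠ 0 := by
    rwa [Ne, map_eq_zero_iff _ (algebraMap F F₂).injective]
  have h1 := val_algebraMap p F F₂ a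
  rw [val_eq_ordZ_div p F₂ ha', val_eq_ordZ_div p F ha, eAbs_of_unram p F F₂ hunr] at h1
  have he := eAbs_pos_real p F
  rw [div_left_inj' he.ne'] at h1
  exact_mod_cast h1

end Unram

section Main

variable (F F₂ L : Type) [Field F] [Algebra ℚ_[p] F] [FiniteDimensional ℚ_[p] F]
  [Field F₂] [Algebra ℚ_[p] F₂] [FiniteDimensional ℚ_[p] F₂]
  [Field L] [Algebra ℚ_[p] L] [FiniteDimensional ℚ_[p] L]
  [Algebra F F₂] [Algebra F₂ L] [Algebra F L] [IsScalarTower F F₂ L]
  [IsScalarTower ℚ_[p] F F₂] [IsScalarTower ℚ_[p] F₂ L] [IsScalarTower ℚ_[p] F L]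

open IntermediateField in
/-- A `p`-th root in `L` of an element of `F₂` generates an intermediate field to which the break
formulas apply. -/
theorem exists_gen (a₂ : F₂) (α : L) (hα : α ^ p = algebraMap F₂ L a₂) :
    ∃ αM : F₂⟮α⟯, αM ^ p = algebraMap F₂ F₂⟮α⟯ a₂ ∧ IntermediateField.adjoin F₂ {αM} = ⊤ := by
  refine ⟨AdjoinSimple.gen F₂ α, ?_, adjoin_gen_eq_top F₂ L α⟩
  apply Subtype.ext
  rw [SubmonoidClass.coe_pow, AdjoinSimple.coe_gen, hα]
  rfl

/-- **KummerLevel** (abstract model). -/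
theorem kummerLevel (ζ : F) (hζ : IsPrimitiveRoot ζ p) (hunr : ramIdx p F F₂ = 1)
    (hBB : BreakBound p F₂ L) (a : F) (ha : a ≠ 0) (α : L) (hα : α ^ p = algebraMap F L a) :
    PeuRam p F a := by
  have hζ₂ : IsPrimitiveRoot (algebraMap F F₂ ζ) p :=
    hζ.map_of_injective (algebraMap F F₂).injective
  have he₂ := eAbs_of_unram p F F₂ hunr
  have htop := top_mul p F₂ hζ₂
  have hepos := eAbs_pos p F₂
  have hp2 := hp.out.two_le
  rcases normalForm p F a ha with hord | ⟨b, hb, j, hj0, hje, hpj, hab1, hval⟩ | hpeu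
  · -- `p ∤ ord a`: break `T`, impossible
    exfalso
    have hord₂ : ¬ (p : ℤ) ∣ ordZ p F₂ (algebraMap F F₂ a) := by
      rwa [ordZ_algebraMap_of_unram p F F₂ hunr ha]
    have hα₂ : α ^ p = algebraMap F₂ L (algebraMap F F₂ a) := by
      rw [hα, IsScalarTower.algebraMap_apply F F₂ L]
    obtain ⟨αM, hαM, hgen⟩ := exists_gen p F₂ L _ α hα₂
    have ha₂ : algebraMap F F₂ a ≠ 0 := by
      rwa [Ne, map_eq_zero_iff _ (algebraMap F F₂).injective]
    have hbr := hasBreak_of_ord p F₂ _ (algebraMap F F₂ ζ) hζ₂ _ ha₂ hord₂ αM hαM hgen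
    have hbound := hBB _ _ hbr
    rw [htop] at hbound
    nlinarith
  · -- level `j < e`, `p ∤ j`: break `T - j > e/(p-1)`, impossible
    exfalso
    have hab0 : a * b ^ p ≠ 0 := mul_ne_zero ha (pow_ne_zero _ hb)
    set a' : F := a * b ^ p with ha'def
    have hα' : (α * algebraMap F L b) ^ p = algebraMap F₂ L (algebraMap F F₂ a') := by
      rw [mul_pow, hα, ← map_pow, ← map_mul, IsScalarTower.algebraMap_apply F F₂ L]
    obtain ⟨αM, hαM, hgen⟩ := exists_gen p F₂ L _ _ hα'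
    have hval₂ : val p F₂ (algebraMap F F₂ a' - 1) = (j : ℝ) / (eAbs p F₂ : ℝ) := by
      rw [he₂, ← hval, ← map_one (algebraMap F F₂), ← map_sub, val_algebraMap]
    have hne₂ : algebraMap F F₂ a' ≠ 1 := by
      rw [← map_one (algebraMap F F₂), Ne, (algebraMap F F₂).injective.eq_iff]
      exact hab1
    have hp1n : 0 < p - 1 := Nat.sub_pos_of_lt hp.out.one_lt
    have hjT : j * (p - 1) < p * eAbs p F₂ := by
      rw [he₂]
      calc j * (p - 1) < eAbs p F * (p - 1) := Nat.mul_lt_mul_of_pos_right hje hp1n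
        _ ≤ eAbs p F * p := Nat.mul_le_mul_left _ (Nat.sub_le p 1)
        _ = p * eAbs p F := Nat.mul_comm _ _
    have hbr := hasBreak_of_level p F₂ _ (algebraMap F F₂ ζ) hζ₂ _ j hj0 hjT hpj hne₂ hval₂
      αM hαM hgen
    have hbound := hBB _ _ hbr
    rw [Nat.sub_mul, htop, he₂] at hbound
    have h1 : j * (p - 1) < eAbs p F * (p - 1) := Nat.mul_lt_mul_of_pos_right hje hp1n
    have h2 : eAbs p F * (p - 1) + eAbs p F = p * eAbs p F := by
      have h3 : eAbs p F * (p - 1) + eAbs p F = eAbs p F * ((p - 1) + 1) := by ring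
      rw [h3, Nat.sub_add_cancel hp.out.one_le, Nat.mul_comm]
    omega
  · exact hpeu

/-- The case `F₂ = F`. -/
theorem kummerLevel' (F L : Type) [Field F] [Algebra ℚ_[p] F] [FiniteDimensional ℚ_[p] F]
    [Field L] [Algebra ℚ_[p] L] [FiniteDimensional ℚ_[p] L] [Algebra F L]
    [IsScalarTower ℚ_[p] F L] (ζ : F) (hζ : IsPrimitiveRoot ζ p)
    (hBB : BreakBound p F L) (a : F) (ha : a ≠ 0) (α : L) (hα : α ^ p = algebraMap F L a) :
    PeuRam p F a := by
  refine kummerLevel p F F L ζ hζ ?_ hBB a ha α hα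
  have h := eAbs_tower p F F
  have he := eAbs_pos p F
  have : eAbs p F * 1 = eAbs p F * ramIdx p F F := by rw [mul_one]; exact h
  exact (Nat.eq_of_mul_eq_mul_left he this).symm

end Main

end Fermat.Agent.TW.Ram8.Level
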