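/-
TW (S56), brick B5-K (Kummer levels), helper8: UNRAMIFIED and TOTALLY RAMIFIED extensions in the
model of `PT/LOC/Interface12`.

* `exists_teich`                      : Teichmüller representatives: `𝒪_E = 𝔪 ∪ ⋃_j (ζ^j + 𝔪)`;
* `isGalois_of_adjoin_root`,
  `ramIdx_eq_one_of_adjoin_root`      : `E(ζ)/E`, `ζ` a root of unity of order prime to `p`, is Galois and
                                        unramified;
* `ramIdx_eq_finrank_of_residue_surj` : an extension with the same residue field is totally ramified.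
-/
import Mathlib
import Fermat.Agent.TW.Ram8.Level
import Fermat.Agent.PT.LOC.Teichmuller14

set_option autoImplicit false
set_option linter.unusedSectionVars false

namespace Fermat.Agent.TW.Ram8.Unram

open scoped Fermat.Agent.PT.LOC.Interface12
open Fermat.Agent.PT.LOC.Interface12 Fermat.Agent.PT.LOC.Structure14
  Fermat.Agent.PT.LOC.StructureNorm14 Fermat.Agent.PT.LOC.RootsUnity14
  Fermat.Agent.PT.LOC.StructureTower27
  Fermat.Agent.PT.LOC.StructureTowerEF27 Fermat.Agent.PT.LOC.Unram11
  Fermat.Agent.PT.LOC.Teichmuller14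
  Fermat.Agent.TW.Ram8.Val Fermat.Agent.TW.Ram8.KIface

open Polynomial

variable (p : ℕ) [hp : Fact p.Prime]

section One

variable (E : Type) [Field E] [Algebra ℚ_[p] E] [FiniteDimensional ℚ_[p] E]

/-- **Teichmüller representatives.** -/
theorem exists_teich : ∃ ζ : E, IsPrimitiveRoot ζ (resCard p E - 1) ∧
    ∀ x ∈ intRing p E, snorm p E x < 1 ∨ ∃ j : ℕ, snorm p E (x - ζ ^ j) < 1 := by
  classical
  obtain ⟨ζ, hζ, hres⟩ := exists_isPrimitiveRoot_and_residue p E
  refine ⟨(ζ : E), hζ.map_of_injective (f := (intRing p E).val) Subtype.val_injective, ?_⟩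
  intro x hx
  by_cases h0 : IsLocalRing.residue (intRing p E) ⟨x, hx⟩ = 0
  · left
    rw [IsLocalRing.residue_eq_zero_iff] at h0
    exact (mem_maximalIdeal_iff_snorm p E ⟨x, hx⟩).1 h0
  · right
    have := Fintype.ofFinite (resField p E)
    have hcard : Fintype.card (resField p E) = resCard p E := by
      rw [Fintype.card_eq_nat_card, card_resField]
    have hpow : (IsLocalRing.residue (intRing p E) ⟨x, hx⟩) ^ (resCard p E - 1) = 1 := by
      rw [← hcard]
      exact FiniteField.pow_card_sub_one_eq_one _ h0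
    have : NeZero (resCard p E - 1) := ⟨by have := one_lt_resCard p E; omega⟩
    obtain ⟨j, -, hj⟩ := hres.eq_pow_of_pow_eq_one hpow
    refine ⟨j, ?_⟩
    have h1 : IsLocalRing.residue (intRing p E) (⟨x, hx⟩ - ζ ^ j) = 0 := by
      rw [map_sub, map_pow, hj, sub_self]
    rw [IsLocalRing.residue_eq_zero_iff] at h1
    have h2 := (mem_maximalIdeal_iff_snorm p E _).1 h1
    have h3 : (((⟨x, hx⟩ - ζ ^ j : intRing p E)) : E) = x - (ζ : E) ^ j := by
      rw [Subalgebra.coe_sub, Subalgebra.coe_pow]
    rw [h3] at h2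
    exact h2

end One

section Tower

variable (E E' : Type) [Field E] [Algebra ℚ_[p] E] [FiniteDimensional ℚ_[p] E]
  [Field E'] [Algebra ℚ_[p] E'] [FiniteDimensional ℚ_[p] E'] [Algebra E E']
  [IsScalarTower ℚ_[p] E E']

theorem isGalois_of_adjoin_root {m : ℕ} (hm : ¬ p ∣ m) {ζ : E'} (hζ : IsPrimitiveRoot ζ m)
    (hgen : IntermediateField.adjoin E {ζ} = ⊤) : IsGalois E E' := by
  have : FiniteDimensional E E' := finiteDimensional_tower p E E'
  have : CharZero E := Fermat.Agent.PT.LOC.UnramDef12.charZero_of_padicAlgebra p E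
  have hm0 : m ≠ 0 := ne_zero_of_not_dvd p hm
  have hsplit : IsSplittingField E E' (X ^ m - C (1 : E)) := by
    constructor
    · rw [Polynomial.map_sub, Polynomial.map_pow, Polynomial.map_C, Polynomial.map_X, map_one]
      exact X_pow_sub_C_splits_of_isPrimitiveRoot hζ hζ.pow_eq_one
    · rw [eq_top_iff, ← IntermediateField.top_toSubalgebra, ← hgen,
        IntermediateField.adjoin_simple_toSubalgebra_of_isAlgebraic (IsAlgebraic.of_finite E ζ)]
      apply Algebra.adjoin_mono
      rw [Set.singleton_subset_iff,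
        mem_rootSet_of_ne (X_pow_sub_C_ne_zero (Nat.pos_of_ne_zero hm0) (1 : E)),
        aeval_def, eval₂_sub, eval₂_X_pow, eval₂_C, hζ.pow_eq_one, map_one, sub_self]
  have hsep : (X ^ m - C (1 : E) : E[X]).Separable :=
    separable_X_pow_sub_C (1 : E) (by exact_mod_cast hm0) one_ne_zero
  exact IsGalois.of_separable_splitting_field hsep

theorem ramIdx_eq_one_of_adjoin_root {m : ℕ} (hm : ¬ p ∣ m) {ζ : E'} (hζ : IsPrimitiveRoot ζ m)
    (hgen : IntermediateField.adjoin E {ζ} = ⊤) : ramIdx p E E' = 1 := by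
  have : FiniteDimensional E E' := finiteDimensional_tower p E E'
  have hgal : IsGalois E E' := isGalois_of_adjoin_root p E E' hm hζ hgen
  have hadj : Algebra.adjoin E {ζ} = ⊤ := IntermediateField.adjoin_eq_top_iff.1 hgen
  have hinj := redHom_injective_of_adjoin p E E' hm {ζ}
    (fun ξ hξ => by rw [Set.mem_singleton_iff] at hξ; rw [hξ]; exact hζ.pow_eq_one) hadj
  exact (isUnramified_iff p E E').1 (isUnramified_of_redHom_injective p E E' hinj)

/-- An extension with the same residue field is totally ramified. -/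
theorem ramIdx_eq_finrank_of_residue_surj
    (h : ∀ x : E', x ∈ intRing p E' → ∃ y : E, y ∈ intRing p E ∧
      snorm p E' (x - algebraMap E E' y) < 1) :
    ramIdx p E E' = Module.finrank E E' := by
  have hle : mI p E ≤ (mI p E').comap (algebraMap (intRing p E) (intRing p E')) := by
    intro a ha
    rw [Ideal.mem_comap]
    exact (mem_mI_algebraMap_iff p E E' a).2 ha
  set f : resF p E →+* resF p E' :=
    Ideal.quotientMap (mI p E') (algebraMap (intRing p E) (intRing p E')) hle with hf
  have hinj : Function.Injective f := RingHom.injective f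
  have hsurj : Function.Surjective f := by
    intro w
    obtain ⟨x, rfl⟩ := Ideal.Quotient.mk_surjective w
    obtain ⟨y, hy, hxy⟩ := h (x : E') x.2
    refine ⟨Ideal.Quotient.mk (mI p E) ⟨y, hy⟩, ?_⟩
    rw [hf, Ideal.quotientMap_mk]
    symm
    rw [Ideal.Quotient.eq, mem_mI_iff_snorm]
    exact hxy
  have hcard : Nat.card (resF p E) = Nat.card (resF p E') :=
    Nat.card_congr (Equiv.ofBijective f ⟨hinj, hsurj⟩)
  rw [card_resF, card_resF, resCard_tower p E E'] at hcard
  have hdeg : resDeg p E E' = 1 := by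
    have h1 : resCard p E ^ 1 = resCard p E ^ resDeg p E E' := by rw [pow_one]; exact hcard
    exact (Nat.pow_right_injective (one_lt_resCard p E) h1).symm
  have := ramIdx_mul_resDeg p E E'
  rw [hdeg, mul_one] at this
  exact this

end Tower

end Fermat.Agent.TW.Ram8.Unram
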