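/-
TW (S56), brick B5-K / LD6, helper8: **`IfaceCT.ExistsUnramSub`** — every finite `F/ℚ_p` inside
`K̄ = PadicAlgCl p` contains a finite unramified `K₀` with the same residue field
(`K₀ = ℚ_p(ζ)`, `ζ` a Teichmüller generator of `F`).
-/
import Mathlib
import Fermat.Agent.TW.Ram8.Unram
import Fermat.Agent.TW.Ram8.KbarModel
import Fermat.Agent.TW.B5.IfaceCT2

set_option autoImplicit false
set_option linter.unusedSectionVars false

namespace Fermat.Agent.TW.Ram8.UnramSub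

open scoped Fermat.Agent.PT.LOC.Interface12
open Fermat.Agent.PT.LOC.Interface12 Fermat.Agent.PT.LOC.Structure14
  Fermat.Agent.PT.LOC.StructureNorm14 Fermat.Agent.PT.LOC.RootsUnity14
  Fermat.Agent.PT.LOC.StructureTower27
  Fermat.Agent.PT.LOC.StructureTowerEF27 Fermat.Agent.PT.LOC.Unram11
  Fermat.Agent.TW.Ram8.Val Fermat.Agent.TW.Ram8.KIface Fermat.Agent.TW.Ram8.NormalForm
  Fermat.Agent.TW.Ram8.Residue
  Fermat.Agent.TW.Ram8.Level Fermat.Agent.TW.Ram8.Unram Fermat.Agent.TW.Ram8.KbarModel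
open Fermat.Agent.TW.B5.Iface

variable (p : ℕ) [hp : Fact p.Prime]

/-- `ℚ_p` has absolute ramification index `1`. -/
theorem eAbs_base : eAbs p ℚ_[p] = 1 := by
  obtain ⟨ϖ, hϖ⟩ := exists_isUniformizer p ℚ_[p]
  have h1 := val_uniformizer p ℚ_[p] hϖ
  have hϖ0 : (ϖ : ℚ_[p]) ≠ 0 := hϖ.2.1
  have h2 : snorm p ℚ_[p] (ϖ : ℚ_[p]) = ‖(ϖ : ℚ_[p])‖ := snorm_algebraMap p ℚ_[p] (ϖ : ℚ_[p])
  have h3 : val p ℚ_[p] (ϖ : ℚ_[p]) = ((ϖ : ℚ_[p]).valuation : ℝ) := by
    rw [val, h2, Padic.norm_eq_zpow_neg_valuation hϖ0, Real.logb, Real.log_zpow]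
    have hlog : Real.log (p : ℝ) ≠ 0 := (Real.log_pos (one_lt_p p)).ne'
    push_cast
    field_simp
  rw [h3] at h1
  have he := eAbs_pos_real p ℚ_[p]
  have h4 : ((ϖ : ℚ_[p]).valuation : ℝ) * (eAbs p ℚ_[p] : ℝ) = 1 := by
    rw [h1]; field_simp
  have h5 : (ϖ : ℚ_[p]).valuation * (eAbs p ℚ_[p] : ℤ) = 1 := by exact_mod_cast h4
  have h6 : ((eAbs p ℚ_[p] : ℕ) : ℤ) = 1 :=
    Int.eq_one_of_dvd_one (by positivity) (Dvd.intro_left _ h5)
  exact_mod_cast h6

/-- **`IfaceCT.ExistsUnramSub`**: the maximal unramified subextension. -/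
theorem existsUnramSub : Fermat.Agent.TW.B5.IfaceCT.ExistsUnramSub p := by
  intro F hF
  have := hF
  obtain ⟨ζ, hζ, hteich⟩ := exists_teich p F
  have hpm : ¬ p ∣ resCard p F - 1 := by
    have := not_dvd_resCard_pow_sub_one p F 1 one_pos
    rwa [pow_one] at this
  have hζint : IsIntegral ℚ_[p] (ζ : Kbar p) :=
    (Algebra.IsAlgebraic.isAlgebraic (ζ : Kbar p)).isIntegral
  have hK₀F : IntermediateField.adjoin ℚ_[p] {(ζ : Kbar p)} ≤ F := by
    rw [IntermediateField.adjoin_le_iff]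
    intro y hy
    rw [Set.mem_singleton_iff] at hy
    rw [hy]
    exact ζ.2
  have hfd : FiniteDimensional ℚ_[p] (IntermediateField.adjoin ℚ_[p] {(ζ : Kbar p)}) :=
    IntermediateField.adjoin.finiteDimensional hζint
  refine ⟨IntermediateField.adjoin ℚ_[p] {(ζ : Kbar p)}, hK₀F, hfd, ?_, ?_⟩
  · -- unramified
    have hprimK : IsPrimitiveRoot (IntermediateField.AdjoinSimple.gen ℚ_[p] (ζ : Kbar p))
        (resCard p F - 1) := by
      apply IsPrimitiveRoot.of_map_of_injective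
        (f := (IntermediateField.adjoin ℚ_[p] {(ζ : Kbar p)}).val) _
        (IntermediateField.adjoin ℚ_[p] {(ζ : Kbar p)}).val.injective
      exact hζ.map_of_injective (f := F.val) F.val.injective
    have hram := ramIdx_eq_one_of_adjoin_root p ℚ_[p]
      (IntermediateField.adjoin ℚ_[p] {(ζ : Kbar p)}) hpm hprimK
      (adjoin_gen_eq_top ℚ_[p] (Kbar p) (ζ : Kbar p))
    have he : eAbs p (IntermediateField.adjoin ℚ_[p] {(ζ : Kbar p)}) = 1 := by
      rw [eAbs_tower p ℚ_[p] (IntermediateField.adjoin ℚ_[p] {(ζ : Kbar p)}), eAbs_base, hram]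
    intro x hx hx0
    have hxK : (⟨x, hx⟩ : IntermediateField.adjoin ℚ_[p] {(ζ : Kbar p)}) ≠ 0 := by
      intro h
      exact hx0 (congrArg Subtype.val h)
    refine ⟨-ordZ p (IntermediateField.adjoin ℚ_[p] {(ζ : Kbar p)}) ⟨x, hx⟩, ?_⟩
    have h1 := norm_eq_rpow p (IntermediateField.adjoin ℚ_[p] {(ζ : Kbar p)}) hxK
    rw [val_eq_ordZ_div p _ hxK, he] at h1
    have h2 : ‖x‖ = (p : ℝ) ^ (-((ordZ p (IntermediateField.adjoin ℚ_[p] {(ζ : Kbar p)})
        ⟨x, hx⟩ : ℝ) / ((1 : ℕ) : ℝ))) := h1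
    rw [h2, ← Real.rpow_intCast]
    congr 1
    push_cast
    ring
  · intro x hx hx1
    have hxint : (⟨x, hx⟩ : F) ∈ intRing p F := by
      rw [mem_intRing_iff]
      have := snorm_eq_norm p F ⟨x, hx⟩
      rw [show spectralNorm ℚ_[p] F (⟨x, hx⟩ : F) = snorm p F ⟨x, hx⟩ from rfl, this]
      exact hx1
    rcases hteich ⟨x, hx⟩ hxint with h | ⟨j, hj⟩
    · refine ⟨0, zero_mem _, ?_⟩
      rw [snorm_eq_norm] at h
      simpa using h
    · refine ⟨(ζ : Kbar p) ^ j,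
        pow_mem (IntermediateField.mem_adjoin_simple_self ℚ_[p] (ζ : Kbar p)) j, ?_⟩
      rw [snorm_eq_norm] at hj
      exact hj

end Fermat.Agent.TW.Ram8.UnramSub
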