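/-
TW (S56), brick B5-K, helper8: **`IfaceCT.KummerLevelGen'`** — final assembly of the Kummer level
bound in the `K̄` model, from

* the inertia field `K = K₀(ξ)` of `L/K₀` (`InertiaField p`, proved by helper50 in
  `Ram50/Inertia50.lean`), `IsGalois`/`eAbs = 1` leaves by helper83 (`B5/LG83R.lean`),
* `(P_m)` for `K ⊆ L` (hypothesis of `KummerLevelGen'`), transferred to the abstract model by
  helper48's `pmAbs_of_fontainePm_intermediate`,
* helper50's `breakBound_totRam` (ramification chapter), and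
* `Level.kummerLevel` (Kummer chapter).
-/
import Mathlib
import Fermat.Agent.TW.Ram8.Level
import Fermat.Agent.TW.Ram8.Unram
import Fermat.Agent.TW.Ram8.UnramSub
import Fermat.Agent.TW.Ram8.KbarModel
import Fermat.Agent.TW.Ram50.Bridge8
import Fermat.Agent.TW.PmAbs48
import Fermat.Agent.TW.B5.IfaceCT2
import Fermat.Agent.TW.B5.LG1.Bridge
import Fermat.Agent.TW.B5.LG83R
import Fermat.Agent.TW.Ram50.Inertia50

set_option autoImplicit false
set_option linter.unusedSectionVars false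
set_option linter.style.haveILetI false

namespace Fermat.Agent.TW.Ram8.LevelGen

open scoped Fermat.Agent.PT.LOC.Interface12 Fermat.Agent.PT.LOC.StructureTower27
open Fermat.Agent.PT.LOC.Interface12 Fermat.Agent.PT.LOC.Structure14
  Fermat.Agent.PT.LOC.StructureNorm14 Fermat.Agent.PT.LOC.RootsUnity14
  Fermat.Agent.PT.LOC.StructureTower27
  Fermat.Agent.PT.LOC.StructureTowerEF27 Fermat.Agent.PT.LOC.Unram11
  Fermat.Agent.TW.Ram8.Val Fermat.Agent.TW.Ram8.KIface Fermat.Agent.TW.Ram8.NormalForm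
  Fermat.Agent.TW.Ram8.Residue
  Fermat.Agent.TW.Ram8.Level Fermat.Agent.TW.Ram8.Unram Fermat.Agent.TW.Ram8.KbarModel
  Fermat.Agent.TW.Ram8.UnramSub
open Fermat.Agent.TW.B5.Iface

noncomputable section

variable (p : ℕ) [hp : Fact p.Prime]

/-! ### Inclusion algebras between intermediate fields of `K̄/ℚ_p` -/

section Plumbing

variable {p}
variable {X Y Z : IntermediateField ℚ_[p] (Kbar p)}

/-- The inclusion algebra `↥X → ↥Y` for `X ≤ Y`. -/
@[reducible] def inclAlgebra (h : X ≤ Y) : Algebra ↥X ↥Y :=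
  (IntermediateField.inclusion h).toRingHom.toAlgebra

theorem inclAlgebra_coe (h : X ≤ Y) (x : X) :
    letI := inclAlgebra h
    ((algebraMap ↥X ↥Y x : Y) : Kbar p) = (x : Kbar p) := rfl

theorem tower_base (h : X ≤ Y) :
    letI := inclAlgebra h
    IsScalarTower ℚ_[p] ↥X ↥Y := by
  letI := inclAlgebra h
  exact IsScalarTower.of_algebraMap_eq fun r => ((IntermediateField.inclusion h).commutes r).symm

theorem tower_incl (h₁ : X ≤ Y) (h₂ : Y ≤ Z) :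
    letI := inclAlgebra h₁
    letI := inclAlgebra h₂
    letI := inclAlgebra (h₁.trans h₂)
    IsScalarTower ↥X ↥Y ↥Z := by
  letI := inclAlgebra h₁
  letI := inclAlgebra h₂
  letI := inclAlgebra (h₁.trans h₂)
  exact IsScalarTower.of_algebraMap_eq fun _ => rfl

theorem finiteDimensional_of_le (h : X ≤ Y) [FiniteDimensional ℚ_[p] Y] :
    FiniteDimensional ℚ_[p] X :=
  FiniteDimensional.of_injective (IntermediateField.inclusion h).toLinearMap
    (IntermediateField.inclusion h).injective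

end Plumbing

/-! ### Ramification facts in the `K̄` model -/

section Facts

variable (X Y : IntermediateField ℚ_[p] (Kbar p)) [FiniteDimensional ℚ_[p] X]
  [FiniteDimensional ℚ_[p] Y] [Algebra ↥X ↥Y] [IsScalarTower ℚ_[p] ↥X ↥Y]

/-- Same residue field ⇒ totally ramified. -/
theorem ramIdx_eq_finrank_of_residue
    (hcoe : ∀ x : X, ((algebraMap ↥X ↥Y x : Y) : Kbar p) = (x : Kbar p))
    (hres : ∀ x ∈ Y, ‖x‖ ≤ 1 → ∃ y ∈ X, ‖x - y‖ < 1) :
    ramIdx p ↥X ↥Y = Module.finrank ↥X ↥Y := by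
  apply ramIdx_eq_finrank_of_residue_surj
  intro x hx
  have hx1 : ‖(x : Kbar p)‖ ≤ 1 := (Fermat.Agent.TW.B5.LG1.Bridge.mem_intRing_iff_norm p Y x).1 hx
  obtain ⟨y, hy, hxy⟩ := hres (x : Kbar p) x.2 hx1
  have hy1 : ‖y‖ ≤ 1 := by
    have h1 : y = (x : Kbar p) - ((x : Kbar p) - y) := by ring
    rw [h1]
    exact (Fermat.Agent.TW.B5.LG1.Bridge.norm_sub_le_max' p _ _).trans (max_le hx1 hxy.le)
  refine ⟨⟨y, hy⟩, ?_, ?_⟩
  · exact (Fermat.Agent.TW.B5.LG1.Bridge.mem_intRing_iff_norm p X ⟨y, hy⟩).2 hy1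
  · rw [snorm_eq_norm p Y]
    have : ((x - algebraMap ↥X ↥Y ⟨y, hy⟩ : Y) : Kbar p) = (x : Kbar p) - y := by
      rw [AddSubgroupClass.coe_sub, hcoe]
    rw [this]
    exact hxy

/-- `F₂ = F(ξ)` is generated by `ξ` over `F`. -/
theorem adjoin_eq_top_of_sup
    (hcoe : ∀ x : X, ((algebraMap ↥X ↥Y x : Y) : Kbar p) = (x : Kbar p))
    (ξ : Kbar p) (hξ : ξ ∈ Y) (hY : Y ≤ X ⊔ IntermediateField.adjoin ℚ_[p] {ξ}) :
    IntermediateField.adjoin ↥X {(⟨ξ, hξ⟩ : Y)} = ⊤ := by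
  rw [eq_top_iff]
  intro x _
  set M : IntermediateField ↥X ↥Y := IntermediateField.adjoin ↥X {(⟨ξ, hξ⟩ : Y)} with hM
  set M' : IntermediateField ℚ_[p] (Kbar p) := (M.restrictScalars ℚ_[p]).map Y.val with hM'
  have hXM : X ≤ M' := by
    intro y hy
    rw [hM', IntermediateField.mem_map]
    refine ⟨algebraMap ↥X ↥Y ⟨y, hy⟩, ?_, hcoe ⟨y, hy⟩⟩
    rw [IntermediateField.mem_restrictScalars]
    exact M.algebraMap_mem _
  have hξM : ξ ∈ M' := by
    rw [hM', IntermediateField.mem_map]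
    refine ⟨⟨ξ, hξ⟩, ?_, rfl⟩
    rw [IntermediateField.mem_restrictScalars]
    exact IntermediateField.mem_adjoin_simple_self ↥X _
  have hle : X ⊔ IntermediateField.adjoin ℚ_[p] {ξ} ≤ M' := by
    refine sup_le hXM ?_
    rw [IntermediateField.adjoin_le_iff]
    intro z hz
    rw [Set.mem_singleton_iff] at hz
    rw [hz]
    exact hξM
  have hx := hle (hY x.2)
  rw [hM', IntermediateField.mem_map] at hx
  obtain ⟨y, hy, hyx⟩ := hx
  rw [IntermediateField.mem_restrictScalars] at hy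
  have hyx' : y = x := Subtype.ext hyx
  rw [← hyx']
  exact hy

/-- `F(ξ)/F` is unramified for `ξ` a root of unity of order prime to `p`. -/
theorem ramIdx_eq_one_of_sup
    (hcoe : ∀ x : X, ((algebraMap ↥X ↥Y x : Y) : Kbar p) = (x : Kbar p))
    {m : ℕ} (hm : ¬ p ∣ m) (ξ : Kbar p) (hprim : IsPrimitiveRoot ξ m) (hξ : ξ ∈ Y)
    (hY : Y ≤ X ⊔ IntermediateField.adjoin ℚ_[p] {ξ}) : ramIdx p ↥X ↥Y = 1 := by
  have hprim' : IsPrimitiveRoot (⟨ξ, hξ⟩ : Y) m :=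
    IsPrimitiveRoot.of_map_of_injective (f := Y.val) hprim Y.val.injective
  exact ramIdx_eq_one_of_adjoin_root p ↥X ↥Y hm hprim' (adjoin_eq_top_of_sup p X Y hcoe ξ hξ hY)

end Facts

/-! ### The assembly -/

/-- The inertia field of `L/K₀` (statement; proved by helper50). -/
def InertiaField : Prop :=
  ∀ (K₀ L : IntermediateField ℚ_[p] (Kbar p)), FiniteDimensional ℚ_[p] K₀ →
    FiniteDimensional ℚ_[p] L → IsUnramifiedField p K₀ → K₀ ≤ L →
    ∃ (K : IntermediateField ℚ_[p] (Kbar p)) (ξ : Kbar p) (m : ℕ), ¬ p ∣ m ∧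
      IsPrimitiveRoot ξ m ∧ K = K₀ ⊔ IntermediateField.adjoin ℚ_[p] {ξ} ∧ K ≤ L ∧
      FiniteDimensional ℚ_[p] K ∧ IsUnramifiedField p K ∧ IsNormalOver p K₀ K ∧
      ∀ x ∈ L, ‖x‖ ≤ 1 → ∃ y ∈ K, ‖x - y‖ < 1

open Fermat.Agent.TW.B5 in
theorem kummerLevelGen'_of_inertiaField (hIF : InertiaField p) : IfaceCT.KummerLevelGen' p := by
  intro hp2 K₀ F L D ζ hK₀fd hK₀ur hK₀F hFL hLfd hnormL hnormF hresF hpe hζ hζF hPm a haF ha0 hroot
  obtain ⟨α, hαL, hα⟩ := hroot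
  obtain ⟨K, ξ, m, hm, hξ, hKdef, hKL, hKfd, hKur, hKnorm, hresL⟩ :=
    hIF K₀ L hK₀fd hLfd hK₀ur (hK₀F.trans hFL)
  have hK₀K : K₀ ≤ K := by rw [hKdef]; exact le_sup_left
  have hξadj : IntermediateField.adjoin ℚ_[p] {ξ} ≤ K := by rw [hKdef]; exact le_sup_right
  have hξK : ξ ∈ K := hξadj (IntermediateField.mem_adjoin_simple_self ℚ_[p] ξ)
  -- `F₂ = F(ξ)`
  set F₂ : IntermediateField ℚ_[p] (Kbar p) := F ⊔ IntermediateField.adjoin ℚ_[p] {ξ} with hF₂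
  have hFF₂ : F ≤ F₂ := le_sup_left
  have hξF₂ : ξ ∈ F₂ :=
    (le_sup_right : IntermediateField.adjoin ℚ_[p] {ξ} ≤ F₂)
      (IntermediateField.mem_adjoin_simple_self ℚ_[p] ξ)
  have hKF₂ : K ≤ F₂ := by
    rw [hKdef]
    exact sup_le (hK₀F.trans hFF₂) le_sup_right
  have hF₂L : F₂ ≤ L := sup_le hFL (hξadj.trans hKL)
  -- instances
  haveI := hLfd
  haveI := hKfd
  haveI hFfd : FiniteDimensional ℚ_[p] F := finiteDimensional_of_le hFL
  haveI hF₂fd : FiniteDimensional ℚ_[p] F₂ := finiteDimensional_of_le hF₂L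
  letI aKF₂ : Algebra ↥K ↥F₂ := inclAlgebra hKF₂
  letI aF₂L : Algebra ↥F₂ ↥L := inclAlgebra hF₂L
  letI aKL : Algebra ↥K ↥L := inclAlgebra (hKF₂.trans hF₂L)
  letI aFF₂ : Algebra ↥F ↥F₂ := inclAlgebra hFF₂
  letI aFL : Algebra ↥F ↥L := inclAlgebra (hFF₂.trans hF₂L)
  haveI tKF₂L : IsScalarTower ↥K ↥F₂ ↥L := tower_incl hKF₂ hF₂L
  haveI tFF₂L : IsScalarTower ↥F ↥F₂ ↥L := tower_incl hFF₂ hF₂L
  haveI tKF₂ : IsScalarTower ℚ_[p] ↥K ↥F₂ := tower_base hKF₂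
  haveI tF₂L : IsScalarTower ℚ_[p] ↥F₂ ↥L := tower_base hF₂L
  haveI tKL : IsScalarTower ℚ_[p] ↥K ↥L := tower_base (hKF₂.trans hF₂L)
  haveI tFF₂ : IsScalarTower ℚ_[p] ↥F ↥F₂ := tower_base hFF₂
  haveI tFL : IsScalarTower ℚ_[p] ↥F ↥L := tower_base (hFF₂.trans hF₂L)
  -- facts
  haveI hGal : IsGalois ↥K ↥L :=
    Fermat.Agent.TW.B5.LG83R.isGalois_of_isNormalOver p K L (fun _ => rfl)
      (fun τ hτ y hy => hnormL τ (fun x hx => hτ x (hK₀K hx)) y hy)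
  have heK : eAbs p ↥K = 1 := Fermat.Agent.TW.B5.LG83R.eAbs_eq_one_of_isUnramifiedField p K hKur
  have htot : ramIdx p ↥K ↥L = Module.finrank ↥K ↥L :=
    ramIdx_eq_finrank_of_residue p K L (fun _ => rfl) hresL
  have hunr : ramIdx p ↥F ↥F₂ = 1 :=
    ramIdx_eq_one_of_sup p F F₂ (fun _ => rfl) hm ξ hξ hξF₂ le_rfl
  have heF₂ : eAbs p ↥F₂ = eAbs p ↥F := eAbs_of_unram p ↥F ↥F₂ hunr
  have htame : ¬ p ∣ ramIdx p ↥K ↥F₂ := by
    have h1 := eAbs_tower p ↥K ↥F₂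
    rw [heK, one_mul, heF₂, ← e_eq D] at h1
    rw [← h1]
    exact hpe
  have hPmAbs : PmAbs p ↥K ↥L :=
    Fermat.Agent.TW.PmAbs48.pmAbs_of_fontainePm_intermediate p K L (fun _ => rfl)
      (hPm K hK₀K hKL hKfd hKur)
  have hBB : BreakBound p ↥F₂ ↥L :=
    Fermat.Agent.TW.Ram50.Bridge8.breakBound_totRam p ↥K ↥F₂ ↥L heK htot htame hPmAbs
  -- Kummer level
  have hζprim : IsPrimitiveRoot (⟨ζ, hζF⟩ : F) p :=
    IsPrimitiveRoot.of_map_of_injective (f := F.val) hζ.isPrimitiveRoot F.val.injective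
  have haF0 : (⟨a, haF⟩ : F) ≠ 0 := fun h => ha0 (congrArg Subtype.val h)
  have hαeq : (⟨α, hαL⟩ : L) ^ p = algebraMap ↥F ↥L ⟨a, haF⟩ := Subtype.ext (by
    rw [SubmonoidClass.coe_pow]
    exact hα)
  obtain ⟨b, hb0, hb⟩ := kummerLevel p ↥F ↥F₂ ↥L ⟨ζ, hζF⟩ hζprim hunr hBB ⟨a, haF⟩ haF0
    ⟨α, hαL⟩ hαeq
  refine ⟨(b : Kbar p), b.2, fun h => hb0 (Subtype.ext h), ?_⟩
  have hmem : a * (b : Kbar p) ^ p ∈ F := F.mul_mem haF (pow_mem b.2 p)
  rw [mem_U_iff' D hmem D.e]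
  have hcast : (⟨a * (b : Kbar p) ^ p, hmem⟩ : F) = ⟨a, haF⟩ * b ^ p := Subtype.ext (by
    rw [MulMemClass.coe_mul, SubmonoidClass.coe_pow])
  rw [hcast]
  unfold InU
  unfold OneModP at hb
  have hone : ((D.e : ℕ) : ℝ) / (eAbs p ↥F : ℝ) = 1 := by
    rw [e_eq D]
    exact div_self (eAbs_pos_real p ↥F).ne'
  rw [hone]
  exact hb

/-- **`IfaceCT.KummerLevelGen'`**, unconditionally. -/
theorem kummerLevelGen' : Fermat.Agent.TW.B5.IfaceCT.KummerLevelGen' p :=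
  kummerLevelGen'_of_inertiaField p
    (fun K₀ L h1 h2 h3 h4 => Fermat.Agent.TW.Ram50.Inertia50.exists_inertia_field p K₀ L h1 h2 h3 h4)

end

end Fermat.Agent.TW.Ram8.LevelGen
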