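/-
TW (S56), brick B5-K (Kummer levels), helper8: **`IfaceCT.KFactsAll`** — the three facts on `p`-th
powers and on the top level `T` for every level datum on a finite field `F ∋ ζ_p`.

* `inU_succ_of_pow` : `p ∤ i`, `i (p-1) < p e`, `b^p ∈ U^{(i)}` ⟹ `b^p ∈ U^{(i+1)}` (abstract model);
* `top_aux`         : `α^p ≡ 1 mod λ^p` ⟹ `(α - 1)/λ` integral and `(ζ^k - 1) α / λ` a unit, `λ = ζ - 1`;
* `kfacts`, `kFactsAll`.
-/
import Mathlib
import Fermat.Agent.TW.Ram8.KbarModel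

set_option autoImplicit false
set_option linter.unusedSectionVars false

namespace Fermat.Agent.TW.Ram8.KFacts

open scoped Fermat.Agent.PT.LOC.Interface12
open Fermat.Agent.PT.LOC.Interface12 Fermat.Agent.PT.LOC.Structure14
  Fermat.Agent.PT.LOC.StructureNorm14 Fermat.Agent.PT.LOC.RootsUnity14
  Fermat.Agent.PT.LOC.StructureTowerEF27
  Fermat.Agent.TW.Ram8.Val Fermat.Agent.TW.Ram8.KIface Fermat.Agent.TW.Ram8.PthPower
  Fermat.Agent.TW.Ram8.Residue Fermat.Agent.TW.Ram8.NormalForm Fermat.Agent.TW.Ram8.TotRam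
  Fermat.Agent.TW.Ram8.Cyclo Fermat.Agent.TW.Ram8.Break Fermat.Agent.TW.Ram8.Level
  Fermat.Agent.TW.Ram8.KbarModel
open Fermat.Agent.TW.B5.Iface Fermat.Agent.TW.B5.Levels47 Fermat.Agent.TW.B5.Kummer47

variable (p : ℕ) [hp : Fact p.Prime]

section Abstract

variable (E : Type) [Field E] [Algebra ℚ_[p] E] [FiniteDimensional ℚ_[p] E]

/-- `p`-th powers at a level prime to `p` (below `T`) lie one level higher. -/
theorem inU_succ_of_pow (b : E) (i : ℕ) (hi0 : 0 < i) (hiT : i * (p - 1) < p * eAbs p E)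
    (hpi : ¬ p ∣ i) (hb : InU p E i (b ^ p)) : InU p E (i + 1) (b ^ p) := by
  by_contra hs
  obtain ⟨hne, hv⟩ := val_eq_of_inU_not_succ p E (b ^ p) i hb hs
  have he := eAbs_pos_real p E
  have hpp := p_pos p
  have hp1 := p_sub_one_pos p
  have hipos : (0 : ℝ) < i := by exact_mod_cast hi0
  have hiT' : (i : ℝ) * ((p : ℝ) - 1) < (p : ℝ) * (eAbs p E : ℝ) := by
    have h2 : ((p - 1 : ℕ) : ℝ) = (p : ℝ) - 1 := by
      rw [Nat.cast_sub hp.out.one_le]; simp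
    rw [← h2]
    exact_mod_cast hiT
  have hb1 : (1 + (b - 1)) ^ p - 1 = b ^ p - 1 := by ring
  have hy : (1 + (b - 1)) ^ p - 1 ≠ 0 := by rw [hb1]; exact sub_ne_zero.2 hne
  obtain ⟨hβ0, hβv⟩ := val_of_one_add_pow p E (b - 1) hy
    (by rw [hb1, hv]; positivity)
    (by rw [hb1, hv, div_lt_div_iff₀ he hp1]; linarith)
  rw [hb1, hv, val_eq_ordZ_div p E hβ0] at hβv
  have h1 : (ordZ p E (b - 1) : ℝ) * (p : ℝ) = (i : ℝ) := by
    field_simp at hβv
    linarith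
  have h2 : ordZ p E (b - 1) * (p : ℤ) = (i : ℤ) := by exact_mod_cast h1
  apply hpi
  have h3 : (p : ℤ) ∣ (i : ℤ) := Dvd.intro_left _ h2
  exact_mod_cast h3

/-- The top level: if `α^p ≡ 1` modulo valuation `p/(p-1)` then `(α - 1)/(ζ - 1)` is integral and
`(ζ^k - 1) α / (ζ - 1)` is a unit for `p ∤ k`. -/
theorem top_aux (ζ : E) (hζ : IsPrimitiveRoot ζ p) (α : E)
    (hα : Vle p E ((p : ℝ) / ((p : ℝ) - 1)) (α ^ p - 1)) :
    Vle p E 0 ((α - 1) / (ζ - 1)) ∧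
      ∀ k : ℕ, ¬ p ∣ k → snorm p E ((ζ ^ k - 1) * α / (ζ - 1)) = 1 := by
  have hp1 := p_sub_one_pos p
  have hl0 := primitiveRoot_sub_one_ne_zero p E hζ
  have hlv := val_primitiveRoot_sub_one p E hζ
  have h1 : Vle p E (1 / ((p : ℝ) - 1)) (α - 1) := by
    apply vle_of_one_add_pow p E (α - 1)
    have : (1 + (α - 1)) ^ p - 1 = α ^ p - 1 := by ring
    rw [this]; exact hα
  have hpos : (0 : ℝ) < 1 / ((p : ℝ) - 1) := by positivity
  constructor
  · by_cases h0 : α - 1 = 0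
    · rw [h0, zero_div]; exact vle_zero p E 0
    · rw [vle_iff p E (div_ne_zero h0 hl0), val_div p E h0 hl0, hlv]
      have := (vle_iff p E h0 _).1 h1
      linarith
  · intro k hk
    -- `α` is a unit
    have hα0 : α ≠ 0 ∧ val p E α = 0 := by
      have h2 : α = 1 + (α - 1) := by ring
      have h3 := val_add_eq_of_vle p E (one_ne_zero) (by rw [val_one]; exact hpos) h1
      rw [← h2, val_one] at h3
      exact h3
    have hcop : Nat.Coprime k p := by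
      rw [Nat.coprime_comm, Nat.Prime.coprime_iff_not_dvd hp.out]; exact hk
    have hprim : IsPrimitiveRoot (ζ ^ k) p := hζ.pow_of_coprime k hcop
    have hk0 := primitiveRoot_sub_one_ne_zero p E hprim
    have hkv := val_primitiveRoot_sub_one p E hprim
    have hne : (ζ ^ k - 1) * α / (ζ - 1) ≠ 0 := div_ne_zero (mul_ne_zero hk0 hα0.1) hl0
    have hv : val p E ((ζ ^ k - 1) * α / (ζ - 1)) = 0 := by
      rw [val_div p E (mul_ne_zero hk0 hα0.1) hl0, val_mul p E hk0 hα0.1, hkv, hlv, hα0.2]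
      ring
    rw [snorm_eq_rpow p E hne, hv, neg_zero, Real.rpow_zero]

end Abstract

section Kbar

variable {p}
variable {F : IntermediateField ℚ_[p] (Kbar p)} [FiniteDimensional ℚ_[p] F] (D : LevelData F)

theorem e_pos : 0 < D.e := by rw [e_eq D]; exact eAbs_pos p F

theorem lt_top_mul {i : ℕ} (hiT : i < D.T) : i * (p - 1) < p * eAbs p F := by
  rw [← T_mul D]
  exact Nat.mul_lt_mul_of_pos_right hiT (Nat.sub_pos_of_lt hp.out.one_lt)

theorem T_pos : 0 < D.T := by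
  by_contra h
  have h0 : D.T = 0 := by omega
  have h1 := T_mul D
  rw [h0, zero_mul] at h1
  have := Nat.mul_pos hp.out.pos (eAbs_pos p F)
  omega

/-- `‖π‖ ^ T = p ^ (-(p/(p-1)))`. -/
theorem norm_pi_pow_T : ‖D.π‖ ^ D.T = (p : ℝ) ^ (-((p : ℝ) / ((p : ℝ) - 1))) := by
  rw [norm_pi_pow D]
  congr 2
  have he := eAbs_pos_real p F
  have hp1 := p_sub_one_pos p
  have h := T_mul D
  have h2 : ((p - 1 : ℕ) : ℝ) = (p : ℝ) - 1 := by
    rw [Nat.cast_sub hp.out.one_le]; simp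
  have h3 : (D.T : ℝ) * ((p : ℝ) - 1) = (p : ℝ) * (eAbs p F : ℝ) := by
    rw [← h2]; exact_mod_cast h
  rw [div_eq_div_iff he.ne' hp1.ne']
  linarith

theorem pow_level (i : ℕ) (hei : D.e ≤ i) (hiT : i < D.T) (hpi : p ∣ i) (a : Kbar p)
    (ha : a ∈ D.U i) : ∃ b ∈ F, b ≠ 0 ∧ a * b ^ p ∈ D.U (i + 1) := by
  have hi0 : 0 < i := lt_of_lt_of_le (e_pos D) hei
  have haU : InU p F i ⟨a, ha.1⟩ := (mem_U_iff' D ha.1 i).1 ha
  obtain ⟨b, hb0, hb⟩ := exists_inU_succ p F ⟨a, ha.1⟩ i hi0 (lt_top_mul D hiT) hpi haU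
  refine ⟨(b : Kbar p), b.2, fun h => hb0 (Subtype.ext h), ?_⟩
  exact (mem_U_iff D (⟨a, ha.1⟩ * b ^ p) (i + 1)).2 hb

theorem pow_mem (i : ℕ) (hei : D.e ≤ i) (hiT : i < D.T) (hpi : ¬ p ∣ i) (b : Kbar p)
    (hbF : b ∈ F) (hb : b ^ p ∈ D.U i) : b ^ p ∈ D.U (i + 1) := by
  have hi0 : 0 < i := lt_of_lt_of_le (e_pos D) hei
  have hbU : InU p F i ((⟨b, hbF⟩ : F) ^ p) := (mem_U_iff D ((⟨b, hbF⟩ : F) ^ p) i).1 hb
  have := inU_succ_of_pow p F ⟨b, hbF⟩ i hi0 (lt_top_mul D hiT) hpi hbU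
  exact (mem_U_iff D ((⟨b, hbF⟩ : F) ^ p) (i + 1)).2 this

theorem top_unram (ζ : Kbar p) (hζ : IsPrimRoot ζ) (hζF : ζ ∈ F) (a : Kbar p) (ha : a ∈ D.U D.T)
    (α : Kbar p) (hα : α ^ p = a) (τ : Gp p) (hτ : IsInertial p τ) (hτF : τ ∈ F.fixingSubgroup) :
    τ α = α := by
  classical
  have hfix : ∀ x ∈ F, τ x = x := fun x hx =>
    (IntermediateField.mem_fixingSubgroup_iff F τ).1 hτF x hx
  -- the finite field `E = F(α)`
  have hαint : IsIntegral ℚ_[p] α := (Algebra.IsAlgebraic.isAlgebraic α).isIntegral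
  have : FiniteDimensional ℚ_[p] (IntermediateField.adjoin ℚ_[p] {α}) :=
    IntermediateField.adjoin.finiteDimensional hαint
  let E : IntermediateField ℚ_[p] (Kbar p) := F ⊔ IntermediateField.adjoin ℚ_[p] {α}
  have : FiniteDimensional ℚ_[p] E := IntermediateField.finiteDimensional_sup F _
  have hζE : ζ ∈ E := (le_sup_left : F ≤ E) hζF
  have hαE : α ∈ E :=
    (le_sup_right : IntermediateField.adjoin ℚ_[p] {α} ≤ E)
      (IntermediateField.mem_adjoin_simple_self ℚ_[p] α)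
  have hprim : IsPrimitiveRoot (⟨ζ, hζE⟩ : E) p := by
    have h1 : IsPrimitiveRoot (E.val ⟨ζ, hζE⟩) p := hζ.isPrimitiveRoot
    exact IsPrimitiveRoot.of_map_of_injective (f := E.val) h1 E.val.injective
  have hvle : Vle p E ((p : ℝ) / ((p : ℝ) - 1)) ((⟨α, hαE⟩ : E) ^ p - 1) := by
    rw [vle_iff_norm, ← norm_pi_pow_T D]
    have : (((⟨α, hαE⟩ : E) ^ p - 1 : E) : Kbar p) = a - 1 := by
      rw [← hα]; rfl
    rw [this]
    exact ha.2
  obtain ⟨hint, hunit⟩ := top_aux p E ⟨ζ, hζE⟩ hprim ⟨α, hαE⟩ hvle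
  have hint' : ‖(α - 1) / (ζ - 1)‖ ≤ 1 := by
    have := (vle_iff_norm p E 0 _).1 hint
    rw [neg_zero, Real.rpow_zero] at this
    exact this
  -- `τ α = ζ ^ k α`
  have ha0 : a ≠ 0 := D.ne_zero_of_mem_U (T_pos D) ha
  have hα0 : α ≠ 0 := by
    rintro rfl
    rw [zero_pow hp.out.ne_zero] at hα
    exact ha0 hα.symm
  have hτa : τ a = a := hfix a ha.1
  have hpow : (τ α / α) ^ p = 1 := by
    rw [div_pow, ← map_pow, hα, hτa, div_self ha0]
  obtain ⟨k, hk, hk'⟩ := hζ.isPrimitiveRoot.eq_pow_of_pow_eq_one hpow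
  have hτα : τ α = ζ ^ k * α := by rw [hk', div_mul_cancel₀ _ hα0]
  by_cases hk0 : k = 0
  · rw [hτα, hk0, pow_zero, one_mul]
  exfalso
  have hpk : ¬ p ∣ k := fun hdvd =>
    absurd (Nat.le_of_dvd (Nat.pos_of_ne_zero hk0) hdvd) (not_le.2 hk)
  have hnorm1 : ‖(ζ ^ k - 1) * α / (ζ - 1)‖ = 1 := by
    have := hunit k hpk
    rw [snorm_eq_norm] at this
    exact this
  have hτζ : τ ζ = ζ := hfix ζ hζF
  have hdiff : τ ((α - 1) / (ζ - 1)) - (α - 1) / (ζ - 1) = (ζ ^ k - 1) * α / (ζ - 1) := by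
    rw [map_div₀, map_sub, map_sub, map_one, hτζ, hτα]
    ring
  have hlt := hτ _ hint'
  rw [hdiff, hnorm1] at hlt
  exact lt_irrefl _ hlt

/-- **(K) facts** for a level datum on a finite field containing `ζ_p`. -/
theorem kfacts (ζ : Kbar p) (hζ : IsPrimRoot ζ) (hζF : ζ ∈ F) : D.KFacts where
  pow_level := fun i hei hiT hpi a ha => pow_level D i hei hiT hpi a ha
  pow_mem := fun i hei hiT hpi b hbF _ hb => pow_mem D i hei hiT hpi b hbF hb
  top_unram := fun a ha α hα τ hτ hτF => top_unram D ζ hζ hζF a ha α hα τ hτ hτF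

end Kbar

/-- **`IfaceCT.KFactsAll`.** -/
theorem kFactsAll : Fermat.Agent.TW.B5.IfaceCT.KFactsAll p := by
  intro _ F D ζ hF hζ hζF
  have := hF
  exact kfacts D ζ hζ hζF

end Fermat.Agent.TW.Ram8.KFacts
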