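/-
TW (S56), brick B5-R (ramification chapter), file 1 (helper8): the ABSOLUTE real valuation of a
`p`-adic field in the model of `PT/LOC/Interface12`
(`[Field E] [Algebra ℚ_[p] E] [FiniteDimensional ℚ_[p] E]`).

* `val p E x = - log_p ‖x‖` (spectral norm), normalised by `val p = 1`; junk value `0` at `x = 0`;
* `Vle p E t x : Prop := ‖x‖ ≤ p ^ (-t)` ("`t ≤ val x` or `x = 0`"): closed under `+`, `*` adds
  thresholds, finite sums/products;
* invariance under `ℚ_[p]`-algebra homomorphisms (towers, Galois);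
* `eAbs p E` : the absolute ramification index; `val π = 1 / eAbs` for a uniformizer;
  `val x = ord x / eAbs`.
-/
import Mathlib
import Fermat.Agent.PT.LOC.StructureNorm14
import Fermat.Agent.PT.LOC.StructureTowerEF27
import Fermat.Agent.PT.LOC.RootsUnity14
import Fermat.Agent.PT.LOC.UnramDef12

set_option autoImplicit false
set_option linter.unusedSectionVars false

namespace Fermat.Agent.TW.Ram8.Val

open scoped Fermat.Agent.PT.LOC.Interface12
open Fermat.Agent.PT.LOC.Interface12 Fermat.Agent.PT.LOC.Structure14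
  Fermat.Agent.PT.LOC.StructureNorm14 Fermat.Agent.PT.LOC.RootsUnity14

noncomputable section

variable (p : ℕ) [hp : Fact p.Prime] (E : Type) [Field E] [Algebra ℚ_[p] E]
  [FiniteDimensional ℚ_[p] E]

/-- The absolute (additive, real-valued) valuation, `val p = 1`.  Junk value `0` at `0`. -/
def val (x : E) : ℝ := -Real.logb p (snorm p E x)

theorem one_lt_p : (1 : ℝ) < p := by exact_mod_cast hp.out.one_lt

theorem p_pos : (0 : ℝ) < p := by exact_mod_cast hp.out.pos

theorem snorm_eq_rpow {x : E} (hx : x ≠ 0) : snorm p E x = (p : ℝ) ^ (-(val p E x)) := by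
  rw [val, neg_neg, Real.rpow_logb (p_pos p) (one_lt_p p).ne' (snorm_pos p E hx)]

theorem val_one : val p E 1 = 0 := by
  rw [val, snorm_one, Real.logb_one, neg_zero]

theorem val_zero : val p E 0 = 0 := by
  rw [val, snorm_zero, Real.logb_zero, neg_zero]

theorem val_mul {x y : E} (hx : x ≠ 0) (hy : y ≠ 0) : val p E (x * y) = val p E x + val p E y := by
  rw [val, val, val, snorm_mul, Real.logb_mul (snorm_pos p E hx).ne' (snorm_pos p E hy).ne']
  ring

theorem val_inv (x : E) : val p E x⁻¹ = -(val p E x) := by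
  rw [val, val, snorm_inv, Real.logb_inv]

theorem val_div {x y : E} (hx : x ≠ 0) (hy : y ≠ 0) : val p E (x / y) = val p E x - val p E y := by
  rw [div_eq_mul_inv, val_mul p E hx (inv_ne_zero hy), val_inv]; ring

theorem val_neg (x : E) : val p E (-x) = val p E x := by
  rw [val, val, snorm_neg]

theorem val_pow (x : E) (n : ℕ) : val p E (x ^ n) = n * val p E x := by
  rw [val, val, snorm_pow, Real.logb_pow]; ring

theorem val_prod {ι : Type*} (s : Finset ι) (f : ι → E) (hf : ∀ i ∈ s, f i ≠ 0) :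
    val p E (∏ i ∈ s, f i) = ∑ i ∈ s, val p E (f i) := by
  classical
  induction s using Finset.induction_on with
  | empty => simp [val_one]
  | insert a s ha ih =>
    rw [Finset.prod_insert ha, Finset.sum_insert ha,
      val_mul p E (hf a (Finset.mem_insert_self a s))
        (Finset.prod_ne_zero_iff.2 fun i hi => hf i (Finset.mem_insert_of_mem hi)),
      ih fun i hi => hf i (Finset.mem_insert_of_mem hi)]

/-- `Vle t x`: "`x = 0` or `t ≤ val x`". -/
def Vle (t : ℝ) (x : E) : Prop := snorm p E x ≤ (p : ℝ) ^ (-t)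

theorem vle_zero (t : ℝ) : Vle p E t 0 := by
  rw [Vle, snorm_zero]; exact (Real.rpow_pos_of_pos (p_pos p) _).le

theorem vle_iff {x : E} (hx : x ≠ 0) (t : ℝ) : Vle p E t x ↔ t ≤ val p E x := by
  rw [Vle, snorm_eq_rpow p E hx, Real.rpow_le_rpow_left_iff (one_lt_p p)]
  constructor <;> intro h <;> linarith

theorem vle_iff' (x : E) (t : ℝ) : Vle p E t x ↔ x = 0 ∨ t ≤ val p E x := by
  by_cases hx : x = 0
  · simp [hx, vle_zero]
  · rw [vle_iff p E hx]; simp [hx]

theorem Vle.mono {t t' : ℝ} {x : E} (h : Vle p E t x) (ht : t' ≤ t) : Vle p E t' x := by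
  refine le_trans h ?_
  exact Real.rpow_le_rpow_of_exponent_le (one_lt_p p).le (by linarith)

theorem Vle.add {t : ℝ} {x y : E} (hx : Vle p E t x) (hy : Vle p E t y) : Vle p E t (x + y) :=
  le_trans (snorm_add_le_max p E x y) (max_le hx hy)

theorem Vle.neg {t : ℝ} {x : E} (hx : Vle p E t x) : Vle p E t (-x) := by
  rw [Vle, snorm_neg]; exact hx

theorem Vle.sub {t : ℝ} {x y : E} (hx : Vle p E t x) (hy : Vle p E t y) : Vle p E t (x - y) := by
  rw [sub_eq_add_neg]; exact Vle.add p E hx (Vle.neg p E hy)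

theorem Vle.mul {s t : ℝ} {x y : E} (hx : Vle p E s x) (hy : Vle p E t y) :
    Vle p E (s + t) (x * y) := by
  rw [Vle, snorm_mul, neg_add, Real.rpow_add (p_pos p)]
  exact mul_le_mul hx hy (snorm_nonneg p E y) (Real.rpow_pos_of_pos (p_pos p) _).le

theorem vle_one : Vle p E 0 1 := by
  rw [Vle, snorm_one, neg_zero, Real.rpow_zero]

theorem Vle.pow {t : ℝ} {x : E} (hx : Vle p E t x) (n : ℕ) : Vle p E (n * t) (x ^ n) := by
  induction n with
  | zero => simpa using vle_one p E
  | succ n ih =>
    rw [pow_succ]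
    have := Vle.mul p E ih hx
    convert this using 1
    push_cast; ring

theorem Vle.sum {ι : Type*} (s : Finset ι) (f : ι → E) (t : ℝ) (hf : ∀ i ∈ s, Vle p E t (f i)) :
    Vle p E t (∑ i ∈ s, f i) := by
  classical
  induction s using Finset.induction_on with
  | empty => simpa using vle_zero p E t
  | insert a s ha ih =>
    rw [Finset.sum_insert ha]
    exact Vle.add p E (hf a (Finset.mem_insert_self a s))
      (ih fun i hi => hf i (Finset.mem_insert_of_mem hi))

theorem Vle.prod {ι : Type*} (s : Finset ι) (f : ι → E) (t : ι → ℝ)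
    (hf : ∀ i ∈ s, Vle p E (t i) (f i)) : Vle p E (∑ i ∈ s, t i) (∏ i ∈ s, f i) := by
  classical
  induction s using Finset.induction_on with
  | empty => simpa using vle_one p E
  | insert a s ha ih =>
    rw [Finset.prod_insert ha, Finset.sum_insert ha]
    exact Vle.mul p E (hf a (Finset.mem_insert_self a s))
      (ih fun i hi => hf i (Finset.mem_insert_of_mem hi))

/-- Ultrametric inequality. -/
theorem min_le_val_add {x y : E} (hx : x ≠ 0) (hy : y ≠ 0) (hxy : x + y ≠ 0) :
    min (val p E x) (val p E y) ≤ val p E (x + y) := by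
  rw [← vle_iff p E hxy]
  exact Vle.add p E
    (Vle.mono p E ((vle_iff p E hx _).2 le_rfl) (min_le_left _ _))
    (Vle.mono p E ((vle_iff p E hy _).2 le_rfl) (min_le_right _ _))

/-- Strict ultrametric equality. -/
theorem val_add_eq_of_lt {x y : E} (hx : x ≠ 0) (hy : y ≠ 0) (h : val p E x < val p E y) :
    val p E (x + y) = val p E x := by
  have hxy : x + y ≠ 0 := by
    intro h0
    have : y = -x := by linear_combination h0
    rw [this, val_neg] at h
    exact lt_irrefl _ h
  apply le_antisymm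
  · by_contra hlt
    replace hlt := not_le.mp hlt
    have h1 : x = (x + y) + (-y) := by ring
    have h2 := min_le_val_add p E hxy (neg_ne_zero.2 hy) (by rw [← h1]; exact hx)
    rw [← h1, val_neg] at h2
    have h3 : val p E x < min (val p E (x + y)) (val p E y) := lt_min hlt h
    linarith
  · have := min_le_val_add p E hx hy hxy
    rwa [min_eq_left h.le] at this

theorem val_sub_eq_of_lt {x y : E} (hx : x ≠ 0) (hy : y ≠ 0) (h : val p E x < val p E y) :
    val p E (x - y) = val p E x := by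
  rw [sub_eq_add_neg]
  exact val_add_eq_of_lt p E hx (neg_ne_zero.2 hy) (by rwa [val_neg])

/-- A dominant term: if `val x < t` and `t ≤ val y` (or `y = 0`) then `x + y ≠ 0` has the
valuation of `x`. -/
theorem val_add_eq_of_vle {x y : E} (hx : x ≠ 0) {t : ℝ} (ht : val p E x < t)
    (hy : Vle p E t y) : x + y ≠ 0 ∧ val p E (x + y) = val p E x := by
  by_cases hy0 : y = 0
  · subst hy0; simp [hx]
  · have hlt : val p E x < val p E y := lt_of_lt_of_le ht ((vle_iff p E hy0 t).1 hy)
    refine ⟨?_, val_add_eq_of_lt p E hx hy0 hlt⟩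
    intro h0
    have : y = -x := by linear_combination h0
    rw [this, val_neg] at hlt
    exact lt_irrefl _ hlt

theorem mem_intRing_iff_vle (x : E) : x ∈ intRing p E ↔ Vle p E 0 x := by
  rw [mem_intRing_iff, Vle, neg_zero, Real.rpow_zero]

theorem mem_intRing_iff_val {x : E} (hx : x ≠ 0) : x ∈ intRing p E ↔ 0 ≤ val p E x := by
  rw [mem_intRing_iff_vle, vle_iff p E hx]

section Tower

variable (E' : Type) [Field E'] [Algebra ℚ_[p] E'] [FiniteDimensional ℚ_[p] E']

theorem val_algHom (f : E →ₐ[ℚ_[p]] E') (x : E) : val p E' (f x) = val p E x := by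
  rw [val, val, snorm_algHom]

theorem vle_algHom (f : E →ₐ[ℚ_[p]] E') (t : ℝ) (x : E) : Vle p E' t (f x) ↔ Vle p E t x := by
  rw [Vle, Vle, snorm_algHom]

variable [Algebra E E'] [IsScalarTower ℚ_[p] E E']

theorem val_algebraMap (x : E) : val p E' (algebraMap E E' x) = val p E x :=
  val_algHom p E E' (IsScalarTower.toAlgHom ℚ_[p] E E') x

theorem vle_algebraMap (t : ℝ) (x : E) : Vle p E' t (algebraMap E E' x) ↔ Vle p E t x :=
  vle_algHom p E E' (IsScalarTower.toAlgHom ℚ_[p] E E') t x

theorem val_galois (σ : E' ≃ₐ[E] E') (x : E') : val p E' (σ x) = val p E' x := by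
  rw [val, val, snorm_galois]

theorem vle_galois (σ : E' ≃ₐ[E] E') (t : ℝ) (x : E') : Vle p E' t (σ x) ↔ Vle p E' t x := by
  rw [Vle, Vle, snorm_galois]

end Tower

theorem val_natCast_p : val p E (p : E) = 1 := by
  rw [val, snorm_natCast_q, Real.logb_inv, Real.logb_self_eq_one (one_lt_p p)]
  ring

/-! ### The absolute ramification index -/

theorem natCast_p_ne_zero : (p : E) ≠ 0 := by
  have := Fermat.Agent.PT.LOC.UnramDef12.charZero_of_padicAlgebra p E
  exact_mod_cast hp.out.ne_zero

/-- `p` as a unit of `E`. -/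
def pUnit : Eˣ := Units.mk0 (p : E) (natCast_p_ne_zero p E)

/-- The absolute ramification index `e(E/ℚ_p) = ord_E p`. -/
def eAbs : ℕ := (ord p E (pUnit p E)).toNat

theorem val_eq_ord_mul (π : Eˣ) (hπ : IsUniformizer p E (π : E)) (x : Eˣ) :
    val p E (x : E) = ord p E x * val p E (π : E) := by
  rw [val, val, snorm_eq_zpow p E π hπ x, ← Real.rpow_intCast, Real.logb_rpow_eq_mul_logb_of_pos
    (snorm_pos p E π.ne_zero)]
  ring

theorem ord_pUnit_pos : 0 < ord p E (pUnit p E) := by
  obtain ⟨π, hπ⟩ := exists_isUniformizer p E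
  have h1 := val_eq_ord_mul p E π hπ (pUnit p E)
  have h2 : val p E ((pUnit p E : Eˣ) : E) = 1 := val_natCast_p p E
  rw [h2] at h1
  have hπpos : 0 < val p E (π : E) := by
    have := snorm_uniformizer_lt_one p E _ hπ
    rw [val, neg_pos]
    exact Real.logb_neg (one_lt_p p) (snorm_pos p E π.ne_zero) this
  by_contra hle
  have hle' : ord p E (pUnit p E) ≤ 0 := not_lt.mp hle
  have : (ord p E (pUnit p E) : ℝ) ≤ 0 := by exact_mod_cast hle'
  nlinarith

theorem eAbs_pos : 0 < eAbs p E := by
  have := ord_pUnit_pos p E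
  rw [eAbs]; omega

theorem eAbs_cast : ((eAbs p E : ℕ) : ℤ) = ord p E (pUnit p E) := by
  rw [eAbs, Int.toNat_of_nonneg (ord_pUnit_pos p E).le]

theorem val_uniformizer {π : E} (hπ : IsUniformizer p E π) : val p E π = 1 / (eAbs p E : ℝ) := by
  have h1 := val_eq_ord_mul p E (Units.mk0 π hπ.2.1) hπ (pUnit p E)
  have h2 : val p E ((pUnit p E : Eˣ) : E) = 1 := val_natCast_p p E
  rw [h2, Units.val_mk0] at h1
  have h3 : ((eAbs p E : ℕ) : ℝ) = ((ord p E (pUnit p E) : ℤ) : ℝ) := by
    rw [← eAbs_cast]; simp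
  have hpos : (0 : ℝ) < eAbs p E := by exact_mod_cast eAbs_pos p E
  rw [h3] at hpos ⊢
  field_simp
  linarith

/-- `val x = ord x / e`. -/
theorem val_eq_ord_div (x : Eˣ) : val p E (x : E) = (ord p E x : ℝ) / (eAbs p E : ℝ) := by
  obtain ⟨π, hπ⟩ := exists_isUniformizer p E
  rw [val_eq_ord_mul p E π hπ x, val_uniformizer p E hπ]
  ring

theorem val_eq_ord_div' {x : E} (hx : x ≠ 0) :
    val p E x = (ord p E (Units.mk0 x hx) : ℝ) / (eAbs p E : ℝ) :=
  val_eq_ord_div p E (Units.mk0 x hx)

/-- The value group is `(1/e) ℤ`. -/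
theorem exists_int_val (x : E) : ∃ n : ℤ, val p E x = (n : ℝ) / (eAbs p E : ℝ) := by
  by_cases hx : x = 0
  · exact ⟨0, by simp [hx, val_zero]⟩
  · exact ⟨_, val_eq_ord_div' p E hx⟩

theorem isUniformizer_iff_val {π : E} (hπ : π ≠ 0) :
    IsUniformizer p E π ↔ val p E π = 1 / (eAbs p E : ℝ) := by
  constructor
  · exact val_uniformizer p E
  · intro h
    have h0 := (isUniformizer_iff_ord p E (Units.mk0 π hπ)).2
    rw [Units.val_mk0] at h0
    apply h0
    rw [val_eq_ord_div' p E hπ] at h
    have hpos : (0 : ℝ) < eAbs p E := by exact_mod_cast eAbs_pos p E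
    have : (ord p E (Units.mk0 π hπ) : ℝ) = 1 := by
      field_simp at h
      linarith
    exact_mod_cast this

section TowerE

variable (E' : Type) [Field E'] [Algebra ℚ_[p] E'] [FiniteDimensional ℚ_[p] E']
  [Algebra E E'] [IsScalarTower ℚ_[p] E E']

open Fermat.Agent.PT.LOC.StructureTowerEF27 in
theorem eAbs_tower : eAbs p E' = eAbs p E * ramIdx p E E' := by
  have h := ord_algebraMap p E E' (pUnit p E)
  have h2 : Units.map (algebraMap E E' : E →* E') (pUnit p E) = pUnit p E' := by
    ext; simp [pUnit]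
  rw [h2] at h
  have : ((eAbs p E' : ℕ) : ℤ) = ((eAbs p E * ramIdx p E E' : ℕ) : ℤ) := by
    rw [eAbs_cast, h, Nat.cast_mul, eAbs_cast]; ring
  exact_mod_cast this

end TowerE

end
end Fermat.Agent.TW.Ram8.Val
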